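import Fermat.Agent.EisReducible.LevelDescent
import Fermat.Agent.Tau.PrimeLevelDuality
import Fermat.Agent.Tau.EisensteinPrime

/-!
# The value of an Eisenstein system at `U_p`

If `θ(T_q) = 1 + q` for all `q ≠ p` then `θ(U_p) = 1` when the residue characteristic is at least
five, so the kernel of `θ` contains the Eisenstein ideal and `l` divides the numerator of
`(p - 1) / 12`.
-/

set_option autoImplicit false
set_option linter.style.haveILetI false
set_option synthInstance.maxHeartbeats 400000
set_option maxHeartbeats 1000000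

noncomputable section

open PowerSeries CongruenceSubgroup CuspForm ModularCurve FA.Mazur FA.Eis FA.SwinnertonDyer
open scoped ArithmeticFunction.sigma

namespace FA.EisReducible

variable {p : ℕ} [Fact p.Prime]

/-- **`U_p` is an involution** of the Hecke algebra of weight two and prime level. -/
theorem tGen_level_sq : tGen p ⟨p, Fact.out⟩ * tGen p ⟨p, Fact.out⟩ = 1 := by
  set r : Nat.Primes := ⟨p, Fact.out⟩
  have h := tGen_mul_hCoeff p r p
  rw [show hCoeff p p = tGen p r from hCoeff_prime p r, if_pos (rfl : (r : ℕ) = p), add_zero] at h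
  rw [h, ← hCoeff_one p]
  refine pairT_injective p (LinearMap.ext fun f => ?_)
  rw [pairT_hCoeff, pairT_hCoeff]
  apply Int.cast_injective (α := ℂ)
  have h2 := congrArg (coeff 1) (Up_Up_eq (isLv_of_cuspForm _) (hasQ_lattice f))
  rw [coeff_Up, coeff_Up, one_mul, coeff_toC, coeff_toC, coeff_mk, coeff_mk] at h2
  exact h2

variable {k : Type} [Field k]

/-- The values at all coefficient elements. -/
theorem value_hCoeff (θ : TAlg p →+* k) {u : k}
    (hu : θ (tGen p ⟨p, Fact.out⟩) = u)
    (heis : ∀ q : Nat.Primes, (q : ℕ) ≠ p → θ (tGen p q) = 1 + ((q : ℕ) : k)) (n : ℕ) :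
    θ (hCoeff p n) = u ^ padicValNat p n * (sigP p n : k) := by
  induction n using Nat.strong_induction_on with
  | _ n ih =>
    rcases Nat.eq_zero_or_pos n with rfl | hn
    · simp [hCoeff_zero]
    rcases eq_or_ne n 1 with rfl | h1
    · simp [hCoeff_one, sigP_one]
    obtain ⟨r, hr, j, rfl⟩ := Nat.exists_prime_and_dvd h1
    have hj0 : 0 < j := Nat.pos_of_mul_pos_left hn
    have hj : j < r * j := lt_mul_of_one_lt_left hj0 hr.one_lt
    have h := congrArg θ (tGen_mul_hCoeff p ⟨r, hr⟩ j)
    rw [map_mul, map_add, mul_comm j, ih j hj] at h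
    by_cases hrp : r = p
    · subst hrp
      rw [if_pos rfl, map_zero, add_zero, hu] at h
      rw [← h, sigP_p_mul, padicValNat.mul hr.ne_zero hj0.ne', padicValNat_self, add_comm 1,
        pow_succ]
      ring
    · rw [if_neg hrp, heis ⟨r, hr⟩ hrp] at h
      have hv : ∀ i : ℕ, i ≠ 0 → padicValNat p (r * i) = padicValNat p i := fun i hi => by
        haveI : Fact r.Prime := ⟨hr⟩
        rw [padicValNat.mul hr.ne_zero hi, padicValNat_primes (Ne.symm hrp), zero_add]
      rw [sigP_prime_mul p hr hrp, hv j hj0.ne']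
      by_cases hd : r ∣ j
      · obtain ⟨i, rfl⟩ := hd
        have hi : i ≠ 0 := (Nat.pos_of_mul_pos_left hj0).ne'
        rw [if_pos (dvd_mul_right r i), Nat.mul_div_cancel_left i hr.pos, map_mul, map_natCast,
          ih i (lt_trans (lt_mul_of_one_lt_left (Nat.pos_of_ne_zero hi) hr.one_lt) hj),
          hv i hi] at h
        rw [if_pos (dvd_mul_right r i), Nat.mul_div_cancel_left i hr.pos, hv i hi]
        push_cast
        linear_combination -h
      · rw [if_neg hd, map_zero, add_zero] at h
        rw [if_neg hd, sub_zero, ← h]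
        push_cast
        ring

variable {l : ℕ} [Fact l.Prime] [CharP k l]

/-- `2 σ(n) = (1 + (-1) ^ v) σ'(n)` when `p ≡ -1`. -/
theorem two_sigma_eq (hm : (p : ZMod l) = -1) (n : ℕ) (hn : 0 < n) :
    (2 : ZMod l) * (σ 1 n : ZMod l) =
      (1 + (-1) ^ padicValNat p n) * (sigP p n : ZMod l) := by
  induction n using Nat.strong_induction_on with
  | _ n ih =>
    have h := congrArg (fun z : ℤ => (z : ZMod l)) (sigma_one_eq p n)
    simp only [Int.cast_add, Int.cast_natCast] at h
    by_cases hd : p ∣ n
    · obtain ⟨j, rfl⟩ := hd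
      have hp : p.Prime := Fact.out
      have hj0 : 0 < j := Nat.pos_of_mul_pos_left hn
      rw [if_pos (dvd_mul_right p j), Nat.mul_div_cancel_left j hp.pos, Int.cast_mul,
        Int.cast_natCast, Int.cast_natCast, hm, sigP_p_mul] at h
      rw [h, sigP_p_mul, padicValNat.mul hp.ne_zero hj0.ne', padicValNat_self, pow_add]
      linear_combination -ih j (lt_mul_of_one_lt_left hj0 hp.one_lt) hj0
    · rw [if_neg hd, Int.cast_zero, add_zero] at h
      rw [h, padicValNat.eq_zero_of_not_dvd hd, pow_zero, one_add_one_eq_two]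

/-- **The value at `U_p` of an Eisenstein system is one.** -/
theorem value_at_level_eq_one (h5 : 5 ≤ l) (hlp : l ≠ p) (θ : TAlg p →+* k)
    (heis : ∀ q : Nat.Primes, (q : ℕ) ≠ p → θ (tGen p q) = 1 + ((q : ℕ) : k)) :
    θ (tGen p ⟨p, Fact.out⟩) = 1 := by
  classical
  have hsq : θ (tGen p ⟨p, Fact.out⟩) * θ (tGen p ⟨p, Fact.out⟩) = 1 := by
    rw [← map_mul, tGen_level_sq, map_one]
  refine (mul_self_eq_one_iff.1 hsq).resolve_right fun hu => ?_
  have hp : p.Prime := Fact.out
  -- the values are in the prime field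
  set c := ZMod.castHom (dvd_refl l) k
  let d : ℕ → ZMod l := fun n => (-1) ^ padicValNat p n * (sigP p n : ZMod l)
  have hd : ∀ n, c (d n) = θ (hCoeff p n) := fun n => by
    rw [value_hCoeff θ hu heis n]
    simp [d, c]
  have hmem : ∀ t, θ t ∈ c.range := fun t => by
    have ht : t ∈ Submodule.span ℤ (Set.range (hCoeff p)) := (span_hCoeff p).symm ▸ trivial
    induction ht using Submodule.span_induction with
    | mem x hx => obtain ⟨n, rfl⟩ := hx; exact ⟨d n, hd n⟩
    | zero => rw [map_zero]; exact zero_mem _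
    | add x y _ _ hx hy => rw [map_add]; exact add_mem hx hy
    | smul a x _ hx => rw [map_zsmul]; exact zsmul_mem hx a
  choose ψ₀ hψ₀ using hmem
  let ψ : TAlg p →+ ZMod l := AddMonoidHom.mk' ψ₀ fun s t => c.injective (by
    rw [map_add, hψ₀, hψ₀, hψ₀, map_add])
  obtain ⟨f, hf⟩ := FA.PrimeLevelDuality.exists_form_mod p ψ
  have hcoef : ∀ n, ((zCoeff n f : ℤ) : ZMod l) = d n := fun n => by
    rw [← pairT_hCoeff, hf]
    exact c.injective ((hψ₀ _).trans (hd n).symm)
  -- the form congruent to a series in `q ^ p`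
  obtain ⟨g, hg⟩ := exists_congData (M := 1) (f : CuspForm (Gamma0 p) 2)
    (PowerSeries.mk fun n => zCoeff n f) (hasQ_lattice f) fun m _ => ⟨_, (one_mul _).symm⟩
  set G := EZ p - C 24 * PowerSeries.mk fun n => zCoeff n f
  have hGn : ∀ n, 0 < n → coeff n (red l G) =
      24 * (1 - (-1) ^ padicValNat p n) * (sigP p n : ZMod l) := fun n hn => by
    rw [red, coeff_map, map_sub, coeff_EZ, if_neg hn.ne', coeff_C_mul, coeff_mk, eq_intCast,
      Int.cast_sub, Int.cast_mul, Int.cast_mul, hcoef]
    simp only [d]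
    push_cast
    ring
  have hG0 : coeff 0 (red l G) = (p : ZMod l) - 1 := by
    rw [red, coeff_map, hg.coeff_zero]
    simp
  set e := Up p (red l G)
  have hV : red l G = Vp p e := by
    ext n
    rw [coeff_Vp]
    split_ifs with hn
    · rw [coeff_Up, Nat.div_mul_cancel hn]
    · rw [hGn n (Nat.pos_of_ne_zero fun h => hn (h ▸ dvd_zero p)),
        padicValNat.eq_zero_of_not_dvd hn, pow_zero, sub_self, mul_zero, zero_mul]
  have he : ∀ n, 0 < n →
      coeff n e = 24 * (1 + (-1) ^ padicValNat p n) * (sigP p n : ZMod l) := fun n hn => by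
    rw [coeff_Up, hGn _ (Nat.mul_pos hn hp.pos), padicValNat.mul hn.ne' hp.ne_zero,
      padicValNat_self, pow_succ, mul_comm n p, sigP_p_mul]
    ring
  refine false_of_trace_forms h5 hlp (e := e) (fun k' a H Hz hk hH hQ => ?_) ?_ ?_ fun hm => ?_
  · rw [← map_Tz hV k' a Hz]
    exact isFormModP_trace hg.lv hg.hasQ hk hH hQ a
  · rw [coeff_Up, zero_mul, hG0]
  · rw [he 1 one_pos, padicValNat_one_right, pow_zero, sigP_one, Int.cast_one]
    ring
  · ext n
    rw [coeff_C_mul]
    rcases Nat.eq_zero_or_pos n with rfl | hn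
    · rw [coeff_Up, zero_mul, hG0, hm]
      simp [e2, FA.Tau.eTwoInt]
      norm_num
    · rw [he n hn, mul_assoc, ← two_sigma_eq hm n hn]
      simp [e2, FA.Tau.eTwoInt, hn.ne']
      ring

omit [Fact l.Prime] in
/-- **A system killing the Eisenstein ideal has its characteristic dividing the numerator.** -/
theorem dvd_of_eisenstein_system (θ : TAlg p →+* k)
    (h : ∀ q : Nat.Primes, θ (tGen p q) = if (q : ℕ) = p then 1 else 1 + ((q : ℕ) : k)) :
    l ∣ eisensteinNumerator p := by
  have heval : ∀ x : HeckeAlg, θ (heckeEvalForms p 2 x) =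
      ((MvPolynomial.aeval (eisensteinSystem p) x : ℤ) : k) := by
    intro x
    induction x using MvPolynomial.induction_on with
    | C r => simp
    | add x y hx hy => simp only [map_add, hx, hy]; push_cast; rfl
    | mul_X x r hx =>
      simp only [map_mul, hx, MvPolynomial.aeval_X]
      rw [show heckeEvalForms p 2 (MvPolynomial.X r) = tGen p r from rfl, h r, eisensteinSystem_eq]
      push_cast
      split_ifs <;> rfl
  obtain ⟨e⟩ := FA.EisensteinPrime.quotient_equiv (p := p)
  have hn : (eisensteinNumerator p : ↥(heckeLatticeAlgebra p ∅)) ∈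
      Ideal.map (latEval p) (eisensteinIdeal p) := by
    rw [← Ideal.Quotient.eq_zero_iff_mem]
    apply e.injective
    simp
  obtain ⟨x, hx, hxn⟩ := (Ideal.mem_map_iff_of_surjective _ latEval_surjective).mp hn
  have hxT : heckeEvalForms p 2 x = (eisensteinNumerator p : TAlg p) :=
    (latticeRestrictHom_bijective p ∅ (FA.Period.hasIntegralStructure p 2)).1
      (hxn.trans (map_natCast _ _).symm)
  have h0 := heval x
  rw [hxT, map_natCast, (mem_eigenIdeal_iff _ x).mp hx, Int.cast_zero] at h0
  exact (CharP.cast_eq_zero_iff k l _).1 h0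

end FA.EisReducible

end
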