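import Fermat.Agent.FlatModel.Modular
import Fermat.Agent.LocalDef.ConnGen
import Fermat.Agent.ModField.Congruence.Pic

/-!
# Connected models of classes with zero reduction

A finite group of classes on `J₀(N)` with zero reduction at a place over `ℓ ∤ N` has a connected
model there.
-/

set_option autoImplicit false
set_option linter.style.haveILetI false
set_option linter.unusedSectionVars false
set_option synthInstance.maxHeartbeats 400000
set_option maxHeartbeats 1600000

noncomputable section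

namespace FA.EisReducible

open AlgebraicCurve FA.Curve FA.CurveRed FA.ModField FA.FlatModel

section General

variable {K F k Fk : Type*} [Field K] [IsAlgClosed K] [Field F] [Algebra K F] [Field k]
  [IsAlgClosed k] [Field Fk] [Algebra k Fk] {A : ValuationSubring K}
  {R : Reduction K F k Fk A} (hF : IsFunctionField K F) (hk : IsFunctionField k Fk)
  {T : Set (SemilinearAut K F)}

include hF hk

/-- **Generators for a finite group of classes with principal specialisation.** -/
theorem exists_conn_generators (hg : FA.Curve.genus K F ≤ FA.Curve.genus k Fk)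
    (hT : ∀ τ ∈ T, ∀ f r, R.Red f r → R.Red (τ • f) r)
    (hres : ∀ b : k, ∃ a : A, R.π a = b ∧ ∀ τ ∈ T, SemilinearAut.baseAut τ (a : K) = a)
    {x : F} {xb : Fk} (hx : R.Red x xb) (hxK : Transcendental K x) (hxb : Transcendental k xb)
    (hdeg : Module.finrank (IntermediateField.adjoin K {x}) F ≤
      Module.finrank (IntermediateField.adjoin k {xb}) Fk)
    {Q₀ : Place k Fk} (hQ₀ : Q₀.ord xb = -1) (hTx : ∀ τ ∈ T, τ • x = x)
    {V : Type} [AddCommGroup V] [Finite V] (ι : V →+ Pic0 K F) (hι : Function.Injective ι)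
    (hpush : ∀ x, ∀ D : Divisor.degZero (K := K) (F := F), Pic0.mk D = ι x →
      (R.push (D : Divisor K F)).IsPrincipal) :
    ∃ (Γ : Type) (_ : Finite Γ) (φ : Γ → V → K), (∀ γ x, φ γ x ∈ A) ∧
      (∀ x y, (∀ γ, φ γ x = φ γ y) → x = y) ∧
      (∀ γ x, A.valuation (φ γ x - φ γ 0) < 1) ∧
      (∀ γ, (fun z : V × V => φ γ (z.1 + z.2)) ∈ Algebra.adjoin A
        (Set.range (fun γ (z : V × V) => φ γ z.1) ∪ Set.range fun γ (z : V × V) => φ γ z.2)) ∧
      ∀ τ ∈ T, ∀ act : V → V, (∀ x, ι (act x) = τ • ι x) →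
        ∀ γ x, SemilinearAut.baseAut τ (φ γ x) = φ γ (act x) := by
  classical
  obtain ⟨hgeq, c, hc, hc'⟩ := exists_common_threshold hF hk R hg
  set g := FA.Curve.genus K F with hgdef
  set B₀ := poleDiv hF x with hB₀def
  have hB₀ : 0 ≤ B₀ := poleDiv_nonneg hF x
  have hB₀d : 0 < Divisor.degree B₀ := by
    rw [hB₀def, degree_poleDiv hF hxK]
    haveI := hF.finiteDimensional hxK
    exact_mod_cast Module.finrank_pos
  have hTB : ∀ τ ∈ T, τ • B₀ = B₀ := fun τ hτ => Finsupp.ext fun v => by
    rw [SemilinearAut.divisor_smul_apply, hB₀def, poleDiv_apply, poleDiv_apply]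
    conv_rhs => rw [← smul_inv_smul τ v, ← hTx τ hτ]
    rw [SemilinearAut.ord_smul]
  have hspl : ∀ τ ∈ T, ∀ P : Place K F, R.spl (τ • P) = R.spl P := fun τ hτ P => by
    have h1 := push_smul hF hk hg (hT τ hτ) (Finsupp.single P 1)
    rw [SemilinearAut.smul_single, Reduction.push_single, Reduction.push_single] at h1
    exact (Finsupp.single_left_inj one_ne_zero).1 h1
  set A₀ := (c + 2 * g + 2) • B₀ with hA₀def
  obtain ⟨d, co, hco1, hco2, hco3⟩ :=
    exists_coeffMaps hF hk hx hxK hxb hdeg hQ₀ (c + 2 * g + 2) hTx hspl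
  have hA₀ : 0 ≤ A₀ := nsmul_nonneg hB₀ _
  have hdA : (c : ℤ) + 2 * g + 2 ≤ Divisor.degree A₀ := by
    rw [hA₀def, map_nsmul, nsmul_eq_mul]
    push_cast
    nlinarith
  have hTA : ∀ τ ∈ T, τ • A₀ = A₀ := fun τ hτ => by
    rw [hA₀def]
    exact (map_nsmul (DistribSMul.toAddMonoidHom (Divisor K F) τ) _ B₀).trans
      (congrArg _ (hTB τ hτ))
  obtain ⟨n, z, zb, hz, hzli, hzs, hzbs, hzfix⟩ :=
    exists_fixed_basis hF hk (D := A₀) co hco1 hco2 hco3 hTA (by
    rw [hc _ (by omega), hc' (R.push A₀) (by rw [Reduction.degree_push hF hk]; omega),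
      Reduction.degree_push hF hk, hgeq])
  choose D₀ hD₀ using fun x : V => Pic0.mk_surjective (ι x)
  have hd0 : ∀ x, Divisor.degree (D₀ x : Divisor K F) = 0 := fun x => (D₀ x).2
  obtain ⟨Eb, hEb0, hEbd, hEbs, hEbell⟩ := exists_general hk
    (fun x => R.push (D₀ x : Divisor K F))
    (fun x => (Reduction.degree_push hF hk _).trans (hd0 x))
    (Finset.finite_toSet (R.push A₀).support)
  choose lft hlft hlfix using fun Q : {Q // Q ∈ Eb.support} =>
    exists_fixed_lift hF hk hg hT hres hc' hA₀ (by omega) hTA hz hzs hzbs hzfix (hEbs Q.1 Q.2)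
  set E : Divisor K F := ∑ Q : {Q // Q ∈ Eb.support}, Finsupp.single (lft Q) (Eb Q.1)
  have hE : 0 ≤ E := Finset.sum_nonneg fun Q _ =>
    Finsupp.single_nonneg.2 (Finsupp.le_def.1 hEb0 Q.1)
  have hEpush : R.push E = Eb := by
    rw [show R.push E = ∑ Q : {Q // Q ∈ Eb.support}, R.push (Finsupp.single (lft Q) (Eb Q.1)) from
      Finsupp.mapDomain_finsetSum]
    simp only [Reduction.push_single, hlft]
    rw [Finset.sum_coe_sort Eb.support fun Q => Finsupp.single Q (Eb Q)]
    exact Finsupp.sum_single Eb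
  have hdE : Divisor.degree E = g := by
    rw [← Reduction.degree_push hF hk (R := R) E, hEpush, hEbd, hgeq]
  have hEfix : ∀ τ ∈ T, τ • E = E := fun τ hτ => by
    simp only [E, Finset.smul_sum]
    exact Finset.sum_congr rfl fun Q _ => by rw [SemilinearAut.smul_single, hlfix Q τ hτ]
  have hup : ∀ x, ell (E + (D₀ x : Divisor K F)) ≤ 1 := fun x => by
    refine (ell_le_ell_push hF hk (R := R) _).trans ?_
    rw [Reduction.push_add, hEpush]
    exact hEbell x
  have hex : ∀ x, ∃ f : F, f ≠ 0 ∧ 0 ≤ E + (D₀ x : Divisor K F) + divOf hF f := fun x =>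
    exists_effective_of_ell_pos hF (by
      have := riemann_inequality hF (E + (D₀ x : Divisor K F))
      rw [map_add, hdE, hd0] at this
      omega)
  choose fD hfD hDnn using hex
  set D : V → Divisor K F := fun x => E + (D₀ x : Divisor K F) + divOf hF (fD x)
  have hclass : ∀ {x : V} {Z : Divisor.degZero (K := K) (F := F)}, Pic0.mk Z = ι x →
      ∃ f : F, f ≠ 0 ∧ (Z : Divisor K F) = D₀ x + divOf hF f := by
    intro x Z hZ
    rw [← hD₀, Pic0.mk, Pic0.mk, QuotientAddGroup.eq, AddSubgroup.mem_addSubgroupOf] at hZ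
    obtain ⟨f, hf, hfv⟩ := hZ
    refine ⟨f⁻¹, inv_ne_zero hf, Finsupp.ext fun v => ?_⟩
    have := hfv v
    simp only [AddSubgroup.coe_add, AddSubgroup.coe_neg, Finsupp.add_apply, Finsupp.neg_apply]
      at this
    rw [Finsupp.add_apply, divOf_apply, v.ord_inv]
    omega
  have hinj : Function.Injective D := by
    intro x y hxy
    refine hι ?_
    rw [← hD₀ x, ← hD₀ y, Pic0.mk, Pic0.mk, QuotientAddGroup.eq, AddSubgroup.mem_addSubgroupOf]
    refine ⟨fD x * (fD y)⁻¹, mul_ne_zero (hfD x) (inv_ne_zero (hfD y)), fun v => ?_⟩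
    have := congrArg (fun D : Divisor K F => D v) hxy
    simp only [D, Finsupp.add_apply, divOf_apply] at this
    simp only [AddSubgroup.coe_add, AddSubgroup.coe_neg, Finsupp.add_apply, Finsupp.neg_apply]
    rw [v.ord_mul (hfD x) (inv_ne_zero (hfD y)), v.ord_inv]
    omega
  have hadd : ∀ x y, ∃ f : F, f ≠ 0 ∧
      (D₀ x : Divisor K F) + D₀ y = D₀ (x + y) + divOf hF f := fun x y =>
    hclass (x := x + y) (Z := D₀ x + D₀ y) (by rw [Pic0.mk_add, hD₀, hD₀, map_add])
  have hgood : ∀ x y, ell (R.push (D x) + R.push (D y) - R.push E) ≤ 1 := by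
    intro x y
    obtain ⟨f, hf, he⟩ := hadd x y
    have key : ∀ u : F, u ≠ 0 → ∃ w : Fk, w ≠ 0 ∧ R.push (divOf hF u) = divOf hk w := by
      intro u hu
      obtain ⟨a, u', hau, hu'⟩ := R.exists_scale u hu
      have hred : R.Red (u' : F) (R.red u') := Reduction.red_of_mem u'
      have ha : algebraMap K F a ≠ 0 := fun h0 => hu (by rw [hau, h0, zero_mul])
      refine ⟨R.red u', hu', ?_⟩
      rw [show divOf hF u = divOf hF (u' : F) from Finsupp.ext fun v => by
        rw [divOf_apply, divOf_apply, hau, v.ord_mul ha (hred.ne_zero hu'), place_ord_algebraMap,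
          zero_add]]
      exact push_divOf' hF hk hred hu'
    obtain ⟨w, hw, hwe⟩ := key (f * (fD x * fD y))
      (mul_ne_zero hf (mul_ne_zero (hfD x) (hfD y)))
    have hkey : D x + D y - E =
        E + (D₀ (x + y) : Divisor K F) + divOf hF (f * (fD x * fD y)) := by
      rw [divOf_mul hF hf (mul_ne_zero (hfD x) (hfD y)), divOf_mul hF (hfD x) (hfD y)]
      calc D x + D y - E
          = E + ((D₀ x : Divisor K F) + D₀ y) + (divOf hF (fD x) + divOf hF (fD y)) := by
            simp only [D]; abel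
        _ = _ := by rw [he]; abel
    rw [← Reduction.push_add, ← push_sub, hkey, Reduction.push_add, Reduction.push_add, hwe,
      ell_add_divOf hk _ hw, hEpush]
    exact hEbell (x + y)
  have hone : ∀ x, R.push (D x) = Eb := by
    intro x
    obtain ⟨w₀, hw₀, hw₀v⟩ := hpush x (D₀ x) (hD₀ x)
    obtain ⟨a, u', hau, hu'⟩ := R.exists_scale (fD x) (hfD x)
    have hred : R.Red (u' : F) (R.red u') := Reduction.red_of_mem u'
    have ha : algebraMap K F a ≠ 0 := fun h0 => hfD x (by rw [hau, h0, zero_mul])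
    have hf : R.push (divOf hF (fD x)) = divOf hk (R.red u') := by
      rw [show divOf hF (fD x) = divOf hF (u' : F) from Finsupp.ext fun v => by
        rw [divOf_apply, divOf_apply, hau, v.ord_mul ha (hred.ne_zero hu'), place_ord_algebraMap,
          zero_add]]
      exact push_divOf' hF hk hred hu'
    have hEb1 : ell Eb ≤ 1 := by
      have h := hEbell x
      rw [show R.push (D₀ x : Divisor K F) = divOf hk w₀ from
        Finsupp.ext fun v => by rw [divOf_apply]; exact hw₀v v, ell_add_divOf hk _ hw₀] at h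
      exact h
    refine eq_of_ell_le_one hk hEb1 (Reduction.push_nonneg (hDnn x)) hEb0
      (mul_ne_zero hw₀ hu') one_ne_zero ?_ ?_
    · simp only [D]
      rw [Reduction.push_add, Reduction.push_add, hEpush, hf, divOf_mul hk hw₀ hu',
        show R.push (D₀ x : Divisor K F) = divOf hk w₀ from
          Finsupp.ext fun v => by rw [divOf_apply]; exact hw₀v v]
      abel
    · exact (Finsupp.ext fun v => by simp [divOf_apply] : Eb = Eb + divOf hk 1)
  let G : Cfg R hF hk V :=
    { c := c, genus_eq := hgeq, hc := hc, hc' := hc', A₀ := A₀, A₀_nonneg := hA₀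
      deg_A₀ := by omega
      n := n, zA := z, zAb := zb, red_zA := hz, indep_zAb := hzli, span_zA := hzs
      span_zAb := hzbs, E := E, E_nonneg := hE, deg_E := hdE, D := D, D_nonneg := hDnn
      deg_D := fun x => by simp only [D, map_add, degree_divOf, hdE, hd0]; ring
      D_inj := hinj, good := hgood
      D_add := fun x y => by
        obtain ⟨f, hf, he⟩ := hadd x y
        refine ⟨fD (x + y) * (f * (fD x * fD y))⁻¹,
          mul_ne_zero (hfD _) (inv_ne_zero (mul_ne_zero hf (mul_ne_zero (hfD x) (hfD y)))),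
          Finsupp.ext fun v => ?_⟩
        have h2 := congrArg (fun D : Divisor K F => D v) he
        simp only [Finsupp.add_apply, divOf_apply] at h2
        simp only [D, Finsupp.add_apply, Finsupp.sub_apply, divOf_apply]
        rw [v.ord_mul (hfD _) (inv_ne_zero (mul_ne_zero hf (mul_ne_zero (hfD x) (hfD y)))),
          v.ord_inv, v.ord_mul hf (mul_ne_zero (hfD x) (hfD y)), v.ord_mul (hfD x) (hfD y)]
        omega }
  refine ⟨Σ x₀ : V, Fin (G.ech x₀).d × Fin G.n, inferInstance, G.gen, G.gen_mem,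
    fun x y => G.gen_separates, fun γ x => ?_, fun γ => G.gen_add_mem γ,
    fun τ hτ act hact γ x => ?_⟩
  · have hx : ∀ y, R.push (G.D y) = R.push (G.D γ.1) := fun y =>
      (hone y).trans (hone γ.1).symm
    obtain ⟨h1, e1⟩ := (G.ech γ.1).a_res x (hx x) γ.2.1 γ.2.2
    obtain ⟨h2, e2⟩ := (G.ech γ.1).a_res 0 (hx 0) γ.2.1 γ.2.2
    simp only [Cfg.gen, if_pos (hx x), if_pos (hx 0)]
    exact (R.π_eq_zero (⟨_, h1⟩ - ⟨_, h2⟩)).1 (by rw [map_sub, e1, e2, sub_self])
  have hDτ : ∀ x, τ • D x = D (act x) := by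
    intro x
    obtain ⟨f, hf, he⟩ := hclass (x := act x)
      (Z := SemilinearAut.degZeroSMulHom τ (D₀ x)) (by
      rw [← SemilinearAut.pic0_smul_mk, hD₀, hact])
    rw [SemilinearAut.coe_degZeroSMulHom] at he
    have hτd : τ • divOf hF (fD x) = divOf hF (τ • fD x) := Finsupp.ext fun v => by
      rw [SemilinearAut.divisor_smul_apply, divOf_apply, divOf_apply]
      conv_rhs => rw [← smul_inv_smul τ v]
      rw [SemilinearAut.ord_smul]
    have hne : τ • fD x ≠ 0 := fun h0 => hfD x (smul_left_cancel τ (by rw [h0, smul_zero]))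
    refine eq_of_ell_le_one hF (hup (act x)) ?_ (hDnn (act x)) (mul_ne_zero hf hne) (hfD (act x))
      ?_ rfl
    · refine Finsupp.le_def.2 fun v => ?_
      rw [Finsupp.coe_zero, Pi.zero_apply, SemilinearAut.divisor_smul_apply]
      exact Finsupp.le_def.1 (hDnn x) _
    · simp only [D, smul_add, hEfix τ hτ, hτd, divOf_mul hF hf hne, he]
      abel
  exact G.gen_map (SemilinearAut.baseAut τ : K →+* K) (SemilinearAut.toRingAut τ : F →+* F)
    (smul_smul' τ) act (fun i => hzfix τ hτ i)
    (fun x f hf => by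
      show τ • f ∈ riemannRochSpace (A₀ - D (act x))
      have := smul_mem_riemannRochSpace τ hf
      rwa [show τ • (G.A₀ - G.D x) = A₀ - D (act x) by
        show τ • (A₀ - D x) = _
        rw [smul_sub, hTA τ hτ, hDτ]] at this)
    (fun x => by
      show R.push (D (act x)) = R.push (D x)
      rw [← hDτ, push_smul hF hk hg (hT τ hτ)])
    γ x

end General

section Modular

open ModularCurve FA.LocalDef

local notation "Qb" => AlgebraicClosure ℚ
local notation "GQ" => AlgebraicClosure ℚ ≃ₐ[ℚ] AlgebraicClosure ℚ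

variable (N : ℕ) [NeZero N] {ℓ : ℕ} [hℓ : Fact ℓ.Prime] (hℓN : ¬ ℓ ∣ N)
  {A : ValuationSubring Qb} (hA : A.LiesOverPrime ℓ)

include hℓN hA

/-- **A finite group of classes with zero reduction has a connected model.** -/
theorem hasConnModel_of_reduction_eq_zero {V : Type} [AddCommGroup V] [Fintype V] (ι : V →+ JZero N)
    (hι : Function.Injective ι) (act : GQ → V → V)
    (hact : ∀ σ ∈ A.inertiaSubgroupIn ℚ, ∀ x, ι (act σ x) = σ • ι x)
    (hred : ∀ x, reductionModL A N (ι x) = 0) : HasConnModel A V act := by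
  classical
  haveI : Algebra.IsAlgebraic ℚ Qb := AlgebraicClosure.isAlgebraic ℚ
  letI : Algebra Qb ℂ := (IsAlgClosed.lift (R := ℚ) (S := Qb) (M := ℂ)).toRingHom.toAlgebra
  haveI := residueAt_charP (ℓ := ℓ) hA
  haveI : IsAlgClosed (IsLocalRing.ResidueField A) := FA.CurveRed.isAlgClosed_residueField A
  obtain ⟨hin, hg⟩ := FA.CurveRed.Modular.reductionInputsModL N hℓ.out hℓN A hA
  have hF := isFunctionField_level Qb N
  have hk := isFunctionField_fullC (IsLocalRing.ResidueField A) N
  obtain ⟨Q₀, hQ₀⟩ : ∃ Q₀ : Place (IsLocalRing.ResidueField A)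
      (modularFunctionFieldFullC (IsLocalRing.ResidueField A) N),
      Q₀.ord (redGen N (IsLocalRing.ResidueField A) 0) = -1 := by
    rcases FA.Level.exists_place_of_embedding
        (modularFunctionFieldFullC (IsLocalRing.ResidueField A) N).val with h0 | ⟨v, m, hm, h0⟩
    · exact absurd ((h0 (jBar _ N)).symm.trans (order_jq _)) (by norm_num)
    · have h1 : m * v.ord (jBar (IsLocalRing.ResidueField A) N) = -1 :=
        (h0 (jBar _ N)).symm.trans (order_jq _)
      have hm1 : m = 1 := Int.eq_one_of_dvd_one hm.le ⟨-v.ord (jBar _ N), by linarith⟩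
      refine ⟨v, ?_⟩
      rw [redGen_zero]
      rwa [hm1, one_mul] at h1
  obtain ⟨Γ, hΓ, φ, hint, hsep, hconn, hcomul, hT⟩ := exists_conn_generators
    (R := redOf N Qb IsLocalRing.residue_surjective residueAt_eq_zero hin) hF hk
    (T := (fun σ => galAut N Qb σ) '' (A.inertiaSubgroupIn ℚ : Set GQ)) hg
    (by
      rintro _ ⟨σ, hσ, rfl⟩ f r hfr
      exact red_galAut N Qb IsLocalRing.residue_surjective residueAt_eq_zero hin
        (inducesOn_inertia hσ) hfr)
    (fun b => by
      obtain ⟨a, ha, hfix⟩ := exists_root_lift hℓ.out hA b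
      refine ⟨a, ha, ?_⟩
      rintro _ ⟨σ, hσ, rfl⟩
      exact hfix σ hσ)
    (red_levelGen N Qb IsLocalRing.residue_surjective residueAt_eq_zero hin 0)
    (levelGen_zero_transcendental N Qb)
    (redGen_zero_transcendental N)
    (finrank_gen_zero N ℓ hℓN Qb IsLocalRing.residue_surjective residueAt_eq_zero hin).le hQ₀
    (by
      rintro _ ⟨σ, hσ, rfl⟩
      exact galAut_levelGen N Qb σ 0)
    ι hι (fun x D hD => by
      obtain ⟨hd, he⟩ :=
        reductionAlong_eq_push N Qb IsLocalRing.residue_surjective residueAt_eq_zero hin D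
      exact (QuotientAddGroup.eq_zero_iff (⟨_, hd⟩ : Divisor.degZero
        (K := IsLocalRing.ResidueField A))).1 (he.symm.trans (hD ▸ hred x)))
  exact HasConnModel.of_generators φ hint hsep hconn
    (fun σ hσ γ x => hT _ ⟨σ, hσ, rfl⟩ (act σ) (hact σ hσ) γ x) hcomul

end Modular

end FA.EisReducible

end
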