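import Fermat.Agent.ModField.Semistable.Mono.GenusLevel
import Fermat.Agent.PicTors.CountComplex
import Fermat.Agent.PicTors.OfComplex
import Fermat.Agent.JTorsion.LatMod

/-!
# All torsion of `J₀(N)` comes from the lattice

The lattice modulo `n` and the `n`-torsion of the degree zero class group both have
`n ^ (2 g)` elements, so the injection of the first into the second is a bijection.
-/

set_option autoImplicit false
set_option linter.style.haveILetI false
set_option linter.unusedSectionVars false
set_option synthInstance.maxHeartbeats 400000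
set_option maxHeartbeats 1000000

noncomputable section

open AlgebraicCurve ModularCurve FA.Level FA.ModField FA.JTorsion

namespace FA.EisReducible

local notation "Qb" => AlgebraicClosure ℚ

/-- **Every torsion class of `J₀(N)` comes from the lattice.** -/
theorem exists_toTors_eq_of_nsmul [Algebra Qb ℂ] (N : ℕ) [NeZero N] (n : ℕ) [NeZero n]
    (x : JZero N) (hx : n • x = 0) :
    ∃ q : ModN N (∅ : Set ℕ) n, toTors N (∅ : Set ℕ) n q = x := by
  classical
  obtain ⟨hfree, hfin⟩ := cuspLat_free_finite (lvlGamma0 N)
  haveI := hfree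
  haveI := hfin
  let b := Module.finBasis ℤ (cuspLat (lvlGamma0 N))
  let r := Module.finrank ℤ (cuspLat (lvlGamma0 N))
  haveI := tors_finite (lvlGamma0 N) Qb n
  let lift : (Fin r → ZMod n) → LatMod N (∅ : Set ℕ) := fun c =>
    (LatMod.val N (∅ : Set ℕ)).symm (∑ i, ((c i).val : ℤ) • b i)
  let F : (Fin r → ZMod n) → tors (lvlGamma0 N) Qb n := fun c =>
    ⟨toTors N (∅ : Set ℕ) n (Submodule.Quotient.mk (lift c)),
      liftedTors_le (toTors_mem N (∅ : Set ℕ) n _)⟩
  have hinj : Function.Injective F := fun c d h => by
    have h1 := (Submodule.Quotient.eq _).1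
      (toTors_injective N (∅ : Set ℕ) n (congrArg Subtype.val h))
    obtain ⟨z, hz⟩ := (mem_nMultiples N (∅ : Set ℕ)).1 h1
    have h2 := congrArg (fun y => b.repr (LatMod.val N (∅ : Set ℕ) y)) hz
    funext i
    have h3 := DFunLike.congr_fun h2 i
    simp only [lift, map_nsmul, map_sub, AddEquiv.apply_symm_apply, Finsupp.smul_apply,
      Finsupp.sub_apply, Module.Basis.repr_sum_self] at h3
    have h4 := congrArg (fun u : ℤ => (u : ZMod n)) h3
    rw [nsmul_eq_mul] at h4
    push_cast at h4
    rw [ZMod.natCast_self, zero_mul, ZMod.natCast_zmod_val, ZMod.natCast_zmod_val] at h4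
    exact sub_eq_zero.1 h4.symm
  have hcard : Nat.card (tors (lvlGamma0 N) Qb n) = Nat.card (Fin r → ZMod n) := by
    haveI : Fintype (ZMod n) := ZMod.fintype n
    rw [Nat.card_fun, Nat.card_zmod, Nat.card_fin, show r = _ from finrank_cuspLat N,
      ← curveGenus_level Qb N]
    exact FA.PicTors.natCard_torsion_of_functionField FA.PicTors.countComplex
      (isFunctionField_level Qb N) n (NeZero.ne n)
  have hmem : x ∈ tors (lvlGamma0 N) Qb n :=
    Pic0.mem_torsion.2 ((natCast_zsmul x n).trans hx)
  obtain ⟨c, hc⟩ := ((Nat.bijective_iff_injective_and_card F).2 ⟨hinj, hcard.symm⟩).2 ⟨x, hmem⟩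
  exact ⟨_, congrArg Subtype.val hc⟩

end FA.EisReducible

end
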