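import Fermat.Agent.EisReducible.Quotient
import Fermat.Agent.JTorsion.LatMod
import Fermat.Agent.JTorsion.GoodRedAll
import Fermat.Agent.FlatModel.Hecke
import Fermat.Agent.Mazur.EisSplit
import Fermat.Agent.Mazur.HeckeCoeff

/-!
# A reducible residual representation at prime level is Eisenstein

The torsion `J₀(p)[l]` has a model at `l`, is unipotent at `p` and unramified elsewhere, so a
residual representation of a system with a stable line has traces `1 + q`.
-/

set_option autoImplicit false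
set_option linter.style.haveILetI false
set_option linter.unusedSectionVars false
set_option synthInstance.maxHeartbeats 400000
set_option maxHeartbeats 1000000

noncomputable section

open FA.JTorsion FA.Mazur ModularCurve
open scoped Matrix

namespace FA.EisReducible

local notation "Qb" => AlgebraicClosure ℚ
local notation "GQ" => AlgebraicClosure ℚ ≃ₐ[ℚ] AlgebraicClosure ℚ

variable {p : ℕ} [Fact p.Prime] {l : ℕ} [hl : Fact l.Prime] {k : Type} [Field k] [CharP k l]

/-- **A residual representation with a stable line is Eisenstein.** -/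
theorem eisenstein_of_stable_line (hl2 : l ≠ 2) (hlp : l ≠ p) (θ : TAlg p →+* k)
    (r : GQ →* Matrix (Fin 2) (Fin 2) k) (hopen : IsOpen (r.ker : Set GQ))
    (hr : ∀ q : Nat.Primes, (q : ℕ) ≠ p → (q : ℕ) ≠ l →
      ∀ A : ValuationSubring Qb, A.LiesOverPrime q → ∀ σ : GQ, A.IsFrobeniusAt σ q →
        (r σ).trace = θ (tGen p q) ∧ (r σ).det = ((q : ℕ) : k))
    {v : Fin 2 → k} (hv : v ≠ 0) (hline : ∀ σ, ∃ c : k, r σ *ᵥ v = c • v)
    (q : Nat.Primes) (hqp : (q : ℕ) ≠ p) (hql : (q : ℕ) ≠ l) :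
    θ (tGen p q) = 1 + ((q : ℕ) : k) := by
  classical
  obtain ⟨alg⟩ := exists_algebra_qbar
  letI := alg
  haveI : NeZero l := ⟨hl.out.ne_zero⟩
  haveI : Module.Finite ℤ (TAlg p) := FA.Period.moduleFinite_heckeAlgebra p 2 ∅
  haveI := FA.FlatModel.modN_finite p (∅ : Set ℕ) l
  haveI : Fintype (ModN p (∅ : Set ℕ) l) := Fintype.ofFinite _
  haveI : Nontrivial (ModN p (∅ : Set ℕ) l ⧸
      (RingHom.ker θ • ⊤ : Submodule (TAlg p) (ModN p (∅ : Set ℕ) l))) := by
    letI := θ.toAlgebra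
    obtain ⟨g₀, x, hx, hg₀⟩ := exists_functional_of_faithful (k := k) l
      (X := LatMod p (∅ : Set ℕ)) fun _ h => latMod_faithful p (∅ : Set ℕ) h
    let g : ModN p (∅ : Set ℕ) l →ₗ[TAlg p] k :=
      (nMultiples p (∅ : Set ℕ) l).liftQ g₀ fun y hy => by
        obtain ⟨z, rfl⟩ := (mem_nMultiples p _).1 hy
        exact hg₀ z
    exact nontrivial_quot_of_functional θ g.toAddMonoidHom
      (fun t y => (map_smul g t y).trans (Algebra.smul_def t (g y)))
      (x := Submodule.Quotient.mk x) hx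
  have hnd : ∀ {a b : ℕ}, a.Prime → b.Prime → a ≠ b → ¬ a ∣ b := fun ha hb hab h =>
    hab ((Nat.prime_dvd_prime_iff_eq ha hb).1 h)
  let t : ℕ → TAlg p := fun n => if h : n.Prime then tGen p ⟨n, h⟩ else 0
  have ht : ∀ n : Nat.Primes, t n = tGen p n := fun n => dif_pos n.2
  have hS : ∀ {n : ℕ}, n ∉ ({p, l} : Finset ℕ) → n ≠ p ∧ n ≠ l := fun hn => by
    simpa only [Finset.mem_insert, Finset.mem_singleton, not_or] using hn
  rw [← ht]
  refine eisenstein_of_galois_module (galMod p (∅ : Set ℕ) l) hl2 θ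
    (exists_field_galMod p (∅ : Set ℕ) l) t {p, l} (by simp) ?_ ?_ ?_ r hopen ?_ hv hline q.2
    (by simp [hqp, hql])
  · intro q' hq' hqS B hB τ hτ y
    obtain ⟨hq'p, hq'l⟩ := hS hqS
    have hqN := hnd hq' Fact.out hq'p
    haveI : NeZero q' := ⟨hq'.ne_zero⟩
    rw [show t q' = CuspForm.heckeAlgebra.T (k := 2) hq' hqN (Set.notMem_empty _) from
      (ht ⟨q', hq'⟩).trans
        (CuspForm.heckeEvalForms_heckeGen_of_not_dvd (ℓ := (⟨q', hq'⟩ : Nat.Primes)) hqN)]
    exact galMod_frobenius p (∅ : Set ℕ) l (goodRed_all p) hq' hqN (hnd hq' hl.out hq'l) hB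
      (Set.notMem_empty _) hτ y
  · intro q' hq' hql'
    obtain ⟨B, hB⟩ := FA.Deform.exists_liesOverPrime hq'
    refine ⟨B, hB, fun τ hτ y => toTors_injective p (∅ : Set ℕ) l ?_⟩
    rw [map_add, map_nsmul, toTors_galMod, toTors_galMod]
    by_cases hqp' : q' = p
    · subst hqp'
      exact semistableTors_level q' B hB τ hτ l (hnd hq' hl.out hql') _
        (nsmul_toTors q' (∅ : Set ℕ) l y)
    · have hin := (goodRed_all p).inertia q' hq' (hnd hq' Fact.out hqp') B hB τ hτ l
        (hnd hq' hl.out hql') _ (nsmul_toTors p (∅ : Set ℕ) l y)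
      rw [hin, hin, two_smul]
  · exact fun B hB => FA.FlatModel.hasModel_jZero p (ℓ := l) (hnd hl.out Fact.out hlp) hB
      (toTors p (∅ : Set ℕ) l) (toTors_injective p (∅ : Set ℕ) l) _
      fun τ y => toTors_galMod p (∅ : Set ℕ) l τ y
  · intro q' hq' hqS B hB τ hτ
    obtain ⟨hq'p, hq'l⟩ := hS hqS
    have h := hr ⟨q', hq'⟩ hq'p hq'l B hB τ hτ
    rwa [← ht ⟨q', hq'⟩] at h

end FA.EisReducible

end
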