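import Fermat.Agent.JTorsion.ResidualAbs
import Fermat.Agent.FlatModel.HeckeFlat
import Fermat.Agent.ModField.Semistable.ConjLattice

/-!
# A vector fixed by complex conjugation killed by a maximal Hecke ideal

For a system `θ` modulo `l`, the lattice modulo `l` has a nonzero vector killed by the kernel of
`θ` and fixed by complex conjugation.
-/

set_option autoImplicit false
set_option linter.style.haveILetI false
set_option linter.unusedSectionVars false
set_option synthInstance.maxHeartbeats 400000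
set_option maxHeartbeats 1000000

noncomputable section

open FA.JTorsion FA.ModField

namespace FA.EisReducible

local notation "Qb" => AlgebraicClosure ℚ
local notation "GQ" => AlgebraicClosure ℚ ≃ₐ[ℚ] AlgebraicClosure ℚ

/-- A nonzero vector killed by a power of an ideal yields one killed by the ideal. -/
theorem exists_killed {T M : Type*} [CommRing T] [AddCommGroup M] [Module T M] (m : Ideal T)
    (P : Submodule T M) : ∀ (n : ℕ) (z : M), z ∈ P → z ≠ 0 → (∀ t ∈ m ^ n, t • z = 0) →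
      ∃ w ∈ P, w ≠ 0 ∧ ∀ t ∈ m, t • w = 0 := by
  intro n
  induction n with
  | zero =>
    intro z _ hz h
    refine absurd ?_ hz
    have := h 1 (by rw [pow_zero, Ideal.one_eq_top]; trivial)
    rwa [one_smul] at this
  | succ n ih =>
    intro z hzP hz h
    by_cases hall : ∀ t ∈ m, t • z = 0
    · exact ⟨z, hzP, hz, hall⟩
    · push Not at hall
      obtain ⟨t, ht, htz⟩ := hall
      refine ih (t • z) (P.smul_mem t hzP) htz fun s hs => ?_
      rw [smul_smul]
      exact h _ (pow_succ m n ▸ Ideal.mul_mem_mul hs ht)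

/-- In a finite module a functional surviving modulo an ideal gives a killed vector. -/
theorem exists_killed_of_functional {T M : Type*} [CommRing T] [AddCommGroup M] [Module T M]
    [Finite M] (m : Ideal T) (Q : Submodule T M)
    (h : ∀ r : T, r - 1 ∈ m → ∃ z ∈ Q, r • z ≠ 0) :
    ∃ w ∈ Q, w ≠ 0 ∧ ∀ t ∈ m, t • w = 0 := by
  classical
  obtain ⟨a, b, hab, heq⟩ := Finite.exists_ne_map_eq_of_infinite
    (fun n : ℕ => (⟨((m ^ n • Q : Submodule T M) : Set M)⟩ : ULift.{0} (Set M)))
  wlog hlt : a < b generalizing a b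
  · exact this b a hab.symm heq.symm (lt_of_le_of_ne (not_lt.1 hlt) hab.symm)
  have he : (m ^ a • Q : Submodule T M) = m ^ b • Q :=
    SetLike.coe_injective (congrArg ULift.down heq)
  have hle : (m ^ a • Q : Submodule T M) ≤ m • (m ^ a • Q) := by
    conv_lhs => rw [he]
    rw [← Submodule.smul_assoc, smul_eq_mul, ← pow_succ']
    exact Submodule.smul_mono_left (Ideal.pow_le_pow_right hlt)
  obtain ⟨r, hr, hr0⟩ := Submodule.exists_sub_one_mem_and_smul_eq_zero_of_fg_of_le_smul m
    (m ^ a • Q) (Submodule.fg_def.2 ⟨_, Set.toFinite _, Submodule.span_eq _⟩) hle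
  obtain ⟨z, hzQ, hz⟩ := h r hr
  refine exists_killed m Q a (r • z) (Q.smul_mem r hzQ) hz fun t ht => ?_
  rw [smul_comm]
  exact hr0 _ (Submodule.smul_mem_smul ht hzQ)

variable [Algebra Qb ℂ] {N : ℕ} [NeZero N] (l : ℕ) [hl : Fact l.Prime]

theorem latMod_eq_zero_of_nsmul {x : LatMod N (∅ : Set ℕ)} (h : l • x = 0) : x = 0 := by
  refine (LatMod.val N _).injective ?_
  rw [map_zero]
  refine Subtype.ext (AddMonoidHom.ext fun g => ?_)
  have h1 := congrArg (LatMod.val N _) h
  rw [map_nsmul, map_zero] at h1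
  have h2 := DFunLike.congr_fun (congrArg Subtype.val h1) g
  have h3 : ((l : ℤ)) * ((LatMod.val N (∅ : Set ℕ) x).1 g) = 0 := by
    simpa using h2
  exact (mul_eq_zero.1 h3).resolve_left (Int.natCast_ne_zero.2 hl.out.ne_zero)

/-- **A killed vector fixed by complex conjugation.** -/
theorem exists_killed_conj {k : Type} [Field k] [CharP k l]
    [Module.Finite ℤ (CuspForm.heckeAlgebra N 2 (∅ : Set ℕ))]
    (θ : CuspForm.heckeAlgebra N 2 (∅ : Set ℕ) →+* k) {c : GQ} (hc : IsConj Qb c) :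
    haveI : NeZero l := ⟨hl.out.ne_zero⟩
    ∃ y : ModN N (∅ : Set ℕ) l, y ≠ 0 ∧ galMod N (∅ : Set ℕ) l c y = y ∧
      ∀ t ∈ RingHom.ker θ, t • y = 0 := by
  haveI : NeZero l := ⟨hl.out.ne_zero⟩
  haveI := FA.FlatModel.modN_finite N (∅ : Set ℕ) l
  letI := θ.toAlgebra
  set P : Submodule _ (LatMod N (∅ : Set ℕ)) := jPart N (-1)
  haveI : Module.Finite ℤ ↥(P.restrictScalars ℤ) := inferInstance
  haveI : Module.Finite ℤ ↥P := ‹Module.Finite ℤ ↥(P.restrictScalars ℤ)›
  haveI : Module.Finite (CuspForm.heckeAlgebra N 2 (∅ : Set ℕ)) ↥P :=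
    Module.Finite.of_restrictScalars_finite ℤ _ _
  obtain ⟨g, x, hx, hg⟩ := exists_functional_of_faithful (k := k) l (X := ↥P) fun t h =>
    eq_zero_of_jPart N (Or.inr rfl) fun z hz => congrArg Subtype.val (h ⟨z, hz⟩)
  let Q : Submodule _ (ModN N (∅ : Set ℕ) l) := P.map (nMultiples N (∅ : Set ℕ) l).mkQ
  obtain ⟨y, hyQ, hy0, hy⟩ := exists_killed_of_functional (RingHom.ker θ) Q fun r hr => by
    refine ⟨Submodule.Quotient.mk (x : LatMod N (∅ : Set ℕ)), ⟨_, x.2, rfl⟩, fun h => ?_⟩
    rw [← Submodule.Quotient.mk_smul, Submodule.Quotient.mk_eq_zero, mem_nMultiples] at h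
    obtain ⟨z, hz⟩ := h
    have hzP : z ∈ P := by
      rw [mem_jPart, neg_one_zsmul, eq_neg_iff_add_eq_zero]
      refine latMod_eq_zero_of_nsmul l ?_
      rw [nsmul_add, ← map_nsmul, hz]
      have hrx : jLat N (∅ : Set ℕ) (r • (x : LatMod N (∅ : Set ℕ))) =
          (-1 : ℤ) • (r • (x : LatMod N (∅ : Set ℕ))) := (P.smul_mem r x.2 :)
      rw [hrx, neg_one_zsmul, neg_add_cancel]
    have h1 : g (r • x) = 0 := by
      rw [show r • x = l • (⟨z, hzP⟩ : ↥P) from Subtype.ext hz.symm]
      exact hg _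
    have hr1 : θ r = 1 := by
      rw [← sub_eq_zero, ← map_one θ, ← map_sub]
      exact hr
    rw [map_smul, Algebra.smul_def, RingHom.algebraMap_toAlgebra, hr1, one_mul] at h1
    exact hx h1
  refine ⟨y, hy0, ?_, hy⟩
  obtain ⟨z, hz, rfl⟩ := hyQ
  rw [Submodule.mkQ_apply, galMod_conj hc]
  rw [show jLat N (∅ : Set ℕ) z = (-1 : ℤ) • z from hz, neg_one_zsmul, neg_neg]

end FA.EisReducible

end
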