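import Fermat.Agent.EisReducible.NoFixedConn
import Fermat.Agent.EisReducible.KillVector
import Fermat.Agent.EisReducible.Hecke
import Fermat.Agent.ModField.Semistable.Chebotarev

/-!
# The value of an Eisenstein system at `T_l`

If `θ(T_q) = 1 + q` for `q ∤ p l` then `θ(T_l) = 1`: otherwise the vectors killed by the kernel
of `θ` have zero reduction at `l`, and one of them is fixed by complex conjugation.
-/

set_option autoImplicit false
set_option linter.style.haveILetI false
set_option linter.unusedSectionVars false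
set_option synthInstance.maxHeartbeats 400000
set_option maxHeartbeats 1000000

noncomputable section

open FA.JTorsion FA.Mazur ModularCurve

namespace FA.EisReducible

local notation "Qb" => AlgebraicClosure ℚ
local notation "GQ" => AlgebraicClosure ℚ ≃ₐ[ℚ] AlgebraicClosure ℚ

/-- Frobenius times inertia is a Frobenius element. -/
theorem frobenius_mul_inertia {A : ValuationSubring Qb} {q : ℕ} {F τ : GQ}
    (hF : A.IsFrobeniusAt F q) (hτ : τ ∈ A.inertiaSubgroupIn ℚ) : A.IsFrobeniusAt (F * τ) q :=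
  ⟨mul_mem hF.mem_decompositionSubgroup (FA.LocalDef.inertia_le_decomposition hτ), fun x => by
    rw [show (⟨F * τ, mul_mem hF.mem_decompositionSubgroup
        (FA.LocalDef.inertia_le_decomposition hτ)⟩ : A.decompositionSubgroup ℚ) =
      ⟨F, hF.mem_decompositionSubgroup⟩ * ⟨τ, FA.LocalDef.inertia_le_decomposition hτ⟩ from rfl,
      mul_smul, FA.LocalDef.smul_inertia_res hτ]
    exact hF.smul_residue_eq x⟩

variable {l : ℕ} [hl : Fact l.Prime]

/-- A Frobenius element at `l` with cyclotomic value different from a given scalar. -/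
theorem exists_frobenius_ne {k : Type} [Field k] [CharP k l] (hl2 : l ≠ 2)
    {A : ValuationSubring Qb} (hA : A.LiesOverPrime l) (a : k) :
    ∃ σ : GQ, A.IsFrobeniusAt σ l ∧
      ((cycK l (ZMod l) σ : ZMod l).val : k) ≠ a := by
  obtain ⟨F, hF⟩ := FA.Deform.exists_isFrobeniusAt hl.out hA
  obtain ⟨ζ, hζ⟩ := FA.LocalDef.exists_zeta hl.out
  have hl1 : 1 ≤ l := hl.out.one_le
  obtain ⟨τ, hτ, hτζ⟩ := FA.LocalDef.exists_inertia_zeta hl.out hA hζ (m := l - 1) fun h => by
    have := Nat.le_of_dvd (by have := hl.out.two_le; omega) h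
    omega
  by_contra hall
  push Not at hall
  have hcast : ∀ z : ZMod l, ((z.val : ℕ) : k) = ZMod.castHom (dvd_refl l) k z := fun z => by
    rw [ZMod.castHom_apply, ZMod.natCast_val]
  have h1 := hall F hF
  have h2 := hall _ (frobenius_mul_inertia hF hτ)
  rw [hcast] at h1 h2
  rw [map_mul, Units.val_mul, cycK_eq hζ hτζ, map_mul, h1, map_natCast, Nat.cast_sub hl1,
    Nat.cast_one, CharP.cast_eq_zero, zero_sub, mul_neg_one, neg_eq_iff_add_eq_zero,
    ← two_mul] at h2
  have h2' : (2 : k) ≠ 0 := fun h => hl2 ((Nat.prime_dvd_prime_iff_eq hl.out Nat.prime_two).1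
    ((CharP.cast_eq_zero_iff k l 2).1 (by exact_mod_cast h)))
  have ha : a = 0 := (mul_eq_zero.1 h2).resolve_left h2'
  rw [ha] at h1
  exact (Units.ne_zero (cycK l (ZMod l) F)) ((map_eq_zero _).1 h1)

/-- A vector killed by the kernel, on which a linear map with roots away from one and `n` is the
operator, vanishes. -/
theorem eq_zero_of_two_roots {T M : Type*} [CommRing T] [Module.Finite ℤ T] [AddCommGroup M]
    [Module T M] {k : Type*} [Field k] [CharP k l] (θ : T →+* k) (g : M →ₗ[T] M) (t : T) (n : ℕ)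
    {w : M} (hm : ∀ s ∈ RingHom.ker θ, s • w = 0) (hg : g w = t • w)
    (hrel : g (g w) + n • w = (1 + n) • g w) (h1 : θ t ≠ 1) (hn : θ t ≠ n) : w = 0 := by
  set m : Ideal T := RingHom.ker θ
  haveI : m.IsPrime := RingHom.ker_isPrime θ
  have hlm : (l : T) ∈ m := by rw [RingHom.mem_ker, map_natCast, CharP.cast_eq_zero]
  haveI : Module.Finite ℤ (T ⧸ m) :=
    Module.Finite.of_surjective (Ideal.Quotient.mk m).toAddMonoidHom.toIntLinearMap
      Ideal.Quotient.mk_surjective
  haveI : Finite (T ⧸ m) := Module.finite_of_fg_torsion (M := T ⧸ m) fun {x} => by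
    refine ⟨⟨(l : ℤ), mem_nonZeroDivisors_of_ne_zero (Int.natCast_ne_zero.2 hl.out.ne_zero)⟩, ?_⟩
    show (l : ℤ) • x = 0
    obtain ⟨a, rfl⟩ := Ideal.Quotient.mk_surjective x
    rw [natCast_zsmul, nsmul_eq_mul, ← map_natCast (Ideal.Quotient.mk m), ← map_mul,
      Ideal.Quotient.eq_zero_iff_mem]
    exact m.mul_mem_right a hlm
  have hmax : m.IsMaximal :=
    Ideal.Quotient.maximal_of_isField _ (Finite.isField_of_domain (T ⧸ m))
  set s := t * t + (n : T) - ((1 + n : ℕ) : T) * t with hs
  have hsne : s ∉ m := by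
    rw [RingHom.mem_ker, hs, map_sub, map_add, map_mul, map_mul, map_natCast, map_natCast,
      Nat.cast_add, Nat.cast_one,
      show θ t * θ t + (n : k) - (1 + (n : k)) * θ t = (θ t - 1) * (θ t - n) by ring]
    exact mul_ne_zero (sub_ne_zero.2 h1) (sub_ne_zero.2 hn)
  obtain ⟨r, i, hi, hri⟩ := hmax.exists_inv hsne
  have hsw : s • w = 0 := by
    rw [hg, map_smul, hg, smul_smul, ← Nat.cast_smul_eq_nsmul T, ← Nat.cast_smul_eq_nsmul T,
      smul_smul, ← add_smul, ← sub_eq_zero, ← sub_smul] at hrel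
    exact hrel
  calc w = (r * s + i) • w := by rw [hri, one_smul]
    _ = 0 := by rw [add_smul, mul_smul, hsw, smul_zero, hm i hi, add_zero]

variable {p : ℕ} [Fact p.Prime] {k : Type} [Field k] [CharP k l]

set_option maxHeartbeats 4000000 in
/-- **The value at `T_l` of an Eisenstein system is one.** -/
theorem value_at_ell_eq_one (hl2 : l ≠ 2) (hlp : l ≠ p) (θ : TAlg p →+* k)
    (heis : ∀ q : Nat.Primes, (q : ℕ) ≠ p → (q : ℕ) ≠ l → θ (tGen p q) = 1 + ((q : ℕ) : k)) :
    θ (tGen p ⟨l, hl.out⟩) = 1 := by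
  classical
  by_contra hone
  obtain ⟨alg⟩ := exists_algebra_qbar
  letI := alg
  haveI : NeZero l := ⟨hl.out.ne_zero⟩
  haveI : Module.Finite ℤ (TAlg p) := FA.Period.moduleFinite_heckeAlgebra p 2 ∅
  haveI := FA.FlatModel.modN_finite p (∅ : Set ℕ) l
  have hlN : ¬ l ∣ p := fun h => hlp ((Nat.prime_dvd_prime_iff_eq hl.out Fact.out).1 h)
  set γ := galMod p (∅ : Set ℕ) l
  set ι₀ := toTors p (∅ : Set ℕ) l
  obtain ⟨c, hc⟩ := FA.ModField.exists_isConj
  obtain ⟨y, hy0, hyc, hym⟩ := exists_killed_conj l θ hc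
  -- the vectors killed by the kernel
  let X : Submodule (TAlg p) (ModN p (∅ : Set ℕ) l) :=
    { carrier := {z | ∀ t ∈ RingHom.ker θ, t • z = 0}
      add_mem' := fun ha hb t ht => by rw [smul_add, ha t ht, hb t ht, add_zero]
      zero_mem' := fun t _ => smul_zero t
      smul_mem' := fun s z hz t ht => by rw [smul_comm, hz t ht, smul_zero] }
  have hXl : ∀ z : X, l • z = 0 := fun z => Subtype.ext (toTors_injective p (∅ : Set ℕ) l (by
    rw [Submodule.coe_smul_of_tower, map_nsmul, ZeroMemClass.coe_zero, map_zero]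
    exact nsmul_toTors p (∅ : Set ℕ) l _))
  haveI : Module (ZMod l) X := AddCommGroup.zmodModule (n := l) (G := X) hXl
  letI : Fintype X := Fintype.ofFinite _
  have hnat : ∀ (a : ZMod l) (z : X), a • z = a.val • z := fun a z => by
    rw [← Nat.cast_smul_eq_nsmul (ZMod l), ZMod.natCast_zmod_val]
  let act : GQ →* Module.End (ZMod l) X :=
    { toFun := fun σ =>
        { toFun := fun z => ⟨γ σ z, fun t ht => by rw [← map_smul, z.2 t ht, map_zero]⟩
          map_add' := fun z w => Subtype.ext (map_add (γ σ) _ _)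
          map_smul' := fun a z => Subtype.ext (by
            show γ σ ((a • z : X) : ModN p (∅ : Set ℕ) l) = _
            rw [hnat, hnat, Submodule.coe_smul_of_tower, map_nsmul]
            rfl) }
      map_one' := LinearMap.ext fun z => Subtype.ext (by
        show γ 1 (z : ModN p (∅ : Set ℕ) l) = z
        rw [map_one]; rfl)
      map_mul' := fun σ τ => LinearMap.ext fun z => Subtype.ext (by
        show γ (σ * τ) (z : ModN p (∅ : Set ℕ) l) = γ σ (γ τ z)
        rw [map_mul]; rfl) }
  let ι : X →+ JZero p := ι₀.comp X.subtype.toAddMonoidHom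
  have hι : Function.Injective ι :=
    (toTors_injective p (∅ : Set ℕ) l).comp Subtype.val_injective
  have hact : ∀ σ z, ι (act σ z) = σ • ι z := fun σ z => toTors_galMod p (∅ : Set ℕ) l σ _
  have hfin : ∃ L : IntermediateField ℚ Qb, FiniteDimensional ℚ L ∧
      ∀ σ : GQ, (∀ a ∈ L, σ a = a) → act σ = 1 :=
    (exists_field_galMod p (∅ : Set ℕ) l).imp fun L h =>
      ⟨h.1, fun σ hσ => LinearMap.ext fun z => Subtype.ext (by
        show γ σ (z : ModN p (∅ : Set ℕ) l) = z
        rw [show γ σ = 1 from h.2 σ hσ]; rfl)⟩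
  -- Frobenius elements away from `p l`
  have hgen : ∀ {q : ℕ} (hq : q.Prime) (hqN : ¬ q ∣ p),
      tGen p ⟨q, hq⟩ = CuspForm.heckeAlgebra.T (k := 2) hq hqN (Set.notMem_empty _) :=
    fun {q} hq hqN =>
      CuspForm.heckeEvalForms_heckeGen_of_not_dvd (ℓ := (⟨q, hq⟩ : Nat.Primes)) hqN
  have hrel : ∀ q : ℕ, q.Prime → q ∉ ({p, l} : Finset ℕ) → ∀ A : ValuationSubring Qb,
      A.LiesOverPrime q → ∀ σ : GQ, A.IsFrobeniusAt σ q → ∀ z,
      act σ z + q • act σ⁻¹ z = (1 + q) • z := by
    intro q hq hqS A hA σ hσ z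
    simp only [Finset.mem_insert, Finset.mem_singleton, not_or] at hqS
    have hqN : ¬ q ∣ p := fun h => hqS.1 ((Nat.prime_dvd_prime_iff_eq hq Fact.out).1 h)
    have hql : ¬ q ∣ l := fun h => hqS.2 ((Nat.prime_dvd_prime_iff_eq hq hl.out).1 h)
    haveI : NeZero q := ⟨hq.ne_zero⟩
    refine Subtype.ext ?_
    rw [Submodule.coe_add, Submodule.coe_smul_of_tower, Submodule.coe_smul_of_tower]
    show γ σ (z : ModN p (∅ : Set ℕ) l) + q • γ σ⁻¹ (z : ModN p (∅ : Set ℕ) l) = _
    rw [galMod_frobenius p (∅ : Set ℕ) l (goodRed_all p) hq hqN hql hA (Set.notMem_empty _) hσ,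
      ← sub_eq_zero, ← hgen hq hqN,
      ← Nat.cast_smul_eq_nsmul (TAlg p), ← sub_smul]
    refine z.2 _ ?_
    rw [RingHom.mem_ker, map_sub, heis ⟨q, hq⟩ hqS.1 hqS.2, map_natCast, Nat.cast_add, Nat.cast_one,
      sub_self]
  -- a Frobenius element at `l`
  obtain ⟨A, hA⟩ := FA.Deform.exists_liesOverPrime hl.out
  obtain ⟨σ, hσ, hσne⟩ := exists_frobenius_ne (k := k) hl2 hA (θ (tGen p ⟨l, hl.out⟩))
  set T := tGen p ⟨l, hl.out⟩
  set n := (cycK l (ZMod l) σ : ZMod l).val
  have hrelσ : ∀ z : X, act σ (act σ z) + n • z = (1 + n) • act σ z := by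
    intro z
    have h := LinearMap.congr_fun
      (sq_relation act hfin {p, l} (by simp) hrel σ) (act σ z)
    have hinv : act σ⁻¹ (act σ z) = z := by
      rw [← Module.End.mul_apply, ← map_mul, inv_mul_cancel, map_one, Module.End.one_apply]
    rw [LinearMap.add_apply, LinearMap.smul_apply, LinearMap.smul_apply, Module.End.one_apply,
      hinv, ← ZMod.natCast_zmod_val (cycK l (ZMod l) σ : ZMod l), Nat.cast_smul_eq_nsmul, add_smul,
      one_smul, Nat.cast_smul_eq_nsmul] at h
    rw [add_smul, one_smul]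
    exact h
  let F : X →+ X := AddMonoidHom.mk' (fun z => T • z - act σ z)
    fun z w => by rw [smul_add, map_add]; abel
  have hFinj : Function.Injective F := (injective_iff_map_eq_zero F).2 fun w hw =>
    Subtype.ext (eq_zero_of_two_roots (l := l) θ (γ σ) T n (fun t ht => w.2 t ht)
      (congrArg Subtype.val (sub_eq_zero.1 hw).symm) (congrArg Subtype.val (hrelσ w)) hone
      hσne.symm)
  have hFsurj : Function.Surjective F := Finite.injective_iff_surjective.1 hFinj
  have hred : ∀ z, reductionModL A p (ι z) = 0 := by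
    intro z
    obtain ⟨v, rfl⟩ := hFsurj z
    obtain ⟨u, rfl⟩ : ∃ u, act σ u = v := ⟨act σ⁻¹ v, by
      rw [← Module.End.mul_apply, ← map_mul, mul_inv_cancel, map_one, Module.End.one_apply]⟩
    have h := FA.ModField.reductionModL_frobenius p hlN hA
      (FA.CurveRed.Modular.reductionInputsModL p hl.out hlN A hA) hσ (ι u)
    have h0 : l • ι u = 0 := by rw [← map_nsmul, hXl, map_zero]
    rw [← map_nsmul (reductionModL A p) l, h0, map_zero, add_zero] at h
    show reductionModL A p (ι (T • act σ u - act σ (act σ u))) = 0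
    rw [map_sub, map_sub, hact σ (act σ u), hact σ u, ← h, sub_eq_zero]
    refine congrArg _ ?_
    rw [← hact σ u]
    show ι₀ (T • (act σ u : ModN p (∅ : Set ℕ) l)) = _
    rw [show T = CuspForm.heckeAlgebra.T (k := 2) hl.out hlN (Set.notMem_empty _) from
      hgen hl.out hlN, toTors_T_smul p l hl.out hlN (Set.notMem_empty _)]
    rfl
  refine hy0 (congrArg Subtype.val (eq_zero_of_connected act p hlN hl2 ι hι hact hfin {p, l}
    (by simp) hrel hA hred (c := c) ?_ (y := ⟨y, hym⟩) (Subtype.ext hyc) :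
      (⟨y, hym⟩ : X) = 0))
  rw [cycK_val, ← FA.ModField.coe_cycMod, FA.ModField.cycMod_conj l 1 hc, map_neg, map_one]

end FA.EisReducible

end
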