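import Fermat.Agent.EisReducible.PowerTrace

/-!
# A series of level `p` modulo `l` whose powers all have small weight

If `e ≡ (p - 1) + 48 q + ⋯` and every `e ^ a · ((-1) ^ a p ^ (k + a) H(q ^ p) + p U_p H)` comes
from a level one form of weight `2 a + k`, there is a contradiction: in weights four and six when
`p ≢ -1`, and by the descent along the Hasse invariant when `e` is `-2 E₂`.
-/

set_option autoImplicit false
set_option maxHeartbeats 800000

noncomputable section

open UpperHalfPlane hiding I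
open PowerSeries CongruenceSubgroup FA.Eis FA.SwinnertonDyer FA.HasseEis
open scoped MatrixGroups ModularForm

namespace FA.EisReducible

variable {l : ℕ} [Fact l.Prime]

/-- Forms of weight four and six modulo `l` are multiples of `E₄` and `E₆`. -/
theorem eq_const_mul {a b : ℕ} (hab : a ≤ 2 ∧ b ≤ 1) {f : PowerSeries (ZMod l)}
    (hf : IsFormModP l (4 * a + 6 * b) f) :
    f = C (coeff 0 f) * red l (Qz ^ a * Rz ^ b) := by
  obtain ⟨G, T, hG, rfl⟩ := hf
  have hQ : HasQ 1 ⇑G (toC T) := by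
    have h := hasQ_modularForm G
    rwa [qe, hG] at h
  obtain ⟨lam, hlam⟩ := exists_normal_int (a := a) (b := b) (c := 0) hab (by push_cast; ring)
    (IsLv.of_modularForm G) hQ
  simp only [zero_add, Finset.sum_range_one, Nat.sub_zero, mul_zero, add_zero, pow_zero,
    mul_one] at hlam
  have h0 : coeff 0 T = lam 0 := by
    rw [hlam, coeff_C_mul, coeff_zero_eq_constantCoeff, map_mul, map_pow, map_pow,
      constantCoeff_Qz, constantCoeff_Rz, one_pow, one_pow, mul_one, mul_one]
  rw [coeff_map, h0, hlam, map_mul, PowerSeries.map_C]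

/-- A power of the Hasse invariant dividing a multiple by a power of its derivative. -/
theorem pow_dvd_of_dvd_mul_dOp_pow (h5 : 5 ≤ l) (a m : ℕ) :
    ∀ F : MvPolynomial (Fin 2) (ZMod l),
      hassePoly l ^ a ∣ F * dOp l (hassePoly l) ^ m → hassePoly l ^ a ∣ F := by
  induction a with
  | zero => intro F _; simp
  | succ a ih =>
    intro F hF
    have h1 : ∀ j : ℕ, hassePoly l ∣ F * dOp l (hassePoly l) ^ j → hassePoly l ∣ F := by
      intro j
      induction j with
      | zero => intro h; simpa using h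
      | succ j ihj =>
        intro h
        rw [pow_succ, ← mul_assoc] at h
        exact ihj (dvd_of_dvd_mul_dOp h5 h)
    obtain ⟨F₁, rfl⟩ := h1 m ((dvd_pow_self _ (Nat.succ_ne_zero a)).trans hF)
    rw [pow_succ', mul_assoc, mul_dvd_mul_iff_left (hassePoly_ne_zero h5)] at hF
    rw [pow_succ']
    exact mul_dvd_mul_left _ (ih F₁ hF)

/-- **No nonzero form stays of small weight after multiplication by powers of `E₂`.** -/
theorem eq_zero_of_e2_pow (h5 : 5 ≤ l) {k : ℕ} {f : PowerSeries (ZMod l)}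
    (hf : ∀ a, ∃ c : ZMod l, c ≠ 0 ∧ IsFormModP l (2 * a + k) (C c * (e2 l ^ a * f))) :
    f = 0 := by
  obtain ⟨c₀, hc₀, h0⟩ := hf 0
  rw [mul_zero, zero_add, pow_zero, one_mul] at h0
  obtain ⟨F, hF, hFf⟩ := h0.exists_isob h5
  suffices hF0 : F = 0 by
    rw [hF0, map_zero] at hFf
    exact (mul_eq_zero.1 hFf.symm).resolve_left fun h =>
      hc₀ ((map_eq_zero_iff _ PowerSeries.C_injective).1 h)
  by_contra hne
  set a := k + 1
  obtain ⟨c, hc, ha⟩ := hf a
  obtain ⟨Ga, hGa, hGaf⟩ := ha.exists_isob h5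
  set A := hassePoly l
  set D := dOp l A
  have hA := isob_hassePoly (p := l) h5
  have hD : Isob D (l - 1 + 2) := dOp_isob hA
  have hL : Isob (Ga * A ^ a) (2 * a + k + a * (l - 1)) := by
    have h := hGa.mul (hA.pow a)
    rwa [smul_eq_mul] at h
  have hR : Isob (MvPolynomial.C (c * c₀⁻¹) * (F * D ^ a))
      (2 * a + k + a * (l - 1)) := by
    have h := (hF.mul (hD.pow a)).C_mul (c * c₀⁻¹)
    rw [smul_eq_mul] at h
    rwa [show k + a * (l - 1 + 2) = 2 * a + k + a * (l - 1) by ring] at h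
  have e : Ga * A ^ a = MvPolynomial.C (c * c₀⁻¹) * (F * D ^ a) := by
    refine sub_eq_zero.1 (phi_injective h5 ((hL.sub hR)) ?_)
    have hC : phi l (MvPolynomial.C (c * c₀⁻¹)) = C (c * c₀⁻¹) := by simp [phi]
    simp only [map_sub, map_mul (phi l), map_pow (phi l), A, D, phi_hassePoly h5,
      phi_dOp_hassePoly h5, hGaf, hFf, one_pow, mul_one, hC]
    rw [sub_eq_zero]
    calc C c * (e2 l ^ a * f) = C (c * c₀⁻¹) * C c₀ * (e2 l ^ a * f) := by
          rw [← map_mul, inv_mul_cancel_right₀ hc₀]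
      _ = C (c * c₀⁻¹) * (C c₀ * f * e2 l ^ a) := by ring
  have hu : IsUnit (MvPolynomial.C (c * c₀⁻¹) : MvPolynomial (Fin 2) (ZMod l)) :=
    (isUnit_iff_ne_zero.2 (mul_ne_zero hc (inv_ne_zero hc₀))).map MvPolynomial.C
  have hdvd : A ^ a ∣ F * D ^ a := by
    rw [← hu.dvd_mul_left, ← e]
    exact dvd_mul_left _ _
  obtain ⟨H, hFH⟩ := pow_dvd_of_dvd_mul_dOp_pow h5 a a F hdvd
  obtain ⟨m, -, hH⟩ := isob_of_dvd hne hF ⟨A ^ a, hFH.trans (mul_comm _ _)⟩
  have hk := hF.inj_right hne (hFH ▸ (hA.pow a).mul hH)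
  rw [smul_eq_mul] at hk
  have h4 : a ≤ a * (l - 1) := Nat.le_mul_of_pos_right _ (by omega)
  omega

theorem coeff_pow_Dz (n : ℕ) : coeff n (Dz ^ n) = 1 := by
  obtain ⟨Q, hQ⟩ := PowerSeries.X_dvd_iff.2 constantCoeff_Dz
  have h1 : constantCoeff Q = 1 := by
    rw [← coeff_one_Dz, hQ, PowerSeries.coeff_succ_X_mul, coeff_zero_eq_constantCoeff]
  rw [hQ, mul_pow, PowerSeries.coeff_X_pow_mul', if_pos le_rfl, Nat.sub_self,
    coeff_zero_eq_constantCoeff, map_pow, h1, one_pow]

/-- **The contradiction.** -/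
theorem false_of_trace_forms (h5 : 5 ≤ l) {p : ℕ} [Fact p.Prime] (hlp : l ≠ p)
    {e : PowerSeries (ZMod l)}
    (hT : ∀ (k a : ℕ) (H : ℍ → ℂ) (Hz : PowerSeries ℤ), Even k → IsLv 1 k H →
      HasQ 1 H (toC Hz) → IsFormModP l (2 * a + k) (e ^ a *
        (C ((-1) ^ a * (p : ZMod l) ^ (k + a)) * Vp p (red l Hz) +
          C (p : ZMod l) * Up p (red l Hz))))
    (h0 : coeff 0 e = (p : ZMod l) - 1) (h1 : coeff 1 e = 48)
    (hneg : (p : ZMod l) = -1 → e = C (-2) * e2 l) : False := by
  have hl : l.Prime := Fact.out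
  have hp0 : (p : ZMod l) ≠ 0 := natCast_ne fun h =>
    hlp ((Nat.prime_dvd_prime_iff_eq hl Fact.out).1 h)
  obtain ⟨h2, h3⟩ := ne_two_three (p := l) h5
  have h48 : (48 : ZMod l) ≠ 0 := by
    rw [show (48 : ZMod l) = 2 ^ 4 * 3 by norm_num]
    exact mul_ne_zero (pow_ne_zero _ h2) h3
  by_cases hm : (p : ZMod l) = -1
  · -- the descent along the Hasse invariant
    have he := hneg hm
    set Hz := Dz ^ p
    set f := Vp p (red l Hz) - Up p (red l Hz) with hf
    have hH : IsLv 1 ((12 * p : ℕ) : ℤ) (Δf ^ p) :=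
      (isLv_discriminant.pow p).congr_weight (by push_cast; ring)
    have hQ : HasQ 1 (Δf ^ p) (toC Hz) := by
      rw [map_pow]
      exact hasQ_discriminant.pow one_pos p
    have hev : Even (12 * p) := ⟨6 * p, by ring⟩
    have hzero : f = 0 := eq_zero_of_e2_pow h5 (k := 12 * p) fun a => by
      refine ⟨(-2) ^ a, pow_ne_zero _ (neg_ne_zero.2 h2), ?_⟩
      have h := hT (12 * p) a _ Hz hev hH hQ
      rw [he, hm, pow_add (-1 : ZMod l), hev.neg_one_pow, one_mul, ← mul_pow, neg_one_mul,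
        neg_neg, one_pow, mul_pow] at h
      convert h using 1
      rw [hf]
      simp only [map_pow, map_neg, map_one]
      ring
    have hc := congrArg (coeff 1) hzero
    rw [hf, map_sub, coeff_Vp, if_neg (not_dvd_one_p p), coeff_Up, one_mul, map_zero, zero_sub,
      neg_eq_zero, red, coeff_map, coeff_pow_Dz, map_one] at hc
    exact one_ne_zero hc
  · -- weights four and six
    set d := (p : ZMod l) - 1
    have hone : HasQ 1 (1 : ℍ → ℂ) (toC 1) := by
      rw [map_one, ← map_one (C : ℂ →+* PowerSeries ℂ)]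
      exact HasQ.const 1 1
    have hsmall : ∀ (a b n : ℕ) (hab : a ≤ 2 ∧ b ≤ 1) (_ : 2 * n = 4 * a + 6 * b),
        e ^ n * C ((-1) ^ n * (p : ZMod l) ^ n + p) =
          C (d ^ n * ((-1) ^ n * (p : ZMod l) ^ n + p)) * red l (Qz ^ a * Rz ^ b) := by
      intro a b n hab hn
      have h := hT 0 n 1 1 ⟨0, rfl⟩ (by exact_mod_cast IsLv.one 1) hone
      rw [map_one (red l), map_one (Vp p), mul_one, zero_add,
        show Up p (1 : PowerSeries (ZMod l)) = 1 by rw [← map_one C, Up_C], mul_one, ← map_add,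
        add_zero, hn] at h
      have := eq_const_mul hab h
      rwa [coeff_zero_eq_constantCoeff, map_mul, map_pow, constantCoeff_C,
        ← coeff_zero_eq_constantCoeff_apply, h0] at this
    have e1 := congrArg (coeff 1) (hsmall 1 0 2 (by omega) (by omega))
    have e2' := congrArg (coeff 1) (hsmall 0 1 3 (by omega) (by omega))
    have hQ1 : coeff 1 (red l (Qz ^ 1 * Rz ^ 0)) = (240 : ZMod l) := by
      rw [pow_one, pow_zero, mul_one, red, coeff_map, coeff_Qz one_ne_zero,
        ArithmeticFunction.sigma_one]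
      simp
    have hR1 : coeff 1 (red l (Qz ^ 0 * Rz ^ 1)) = -(504 : ZMod l) := by
      rw [pow_one, pow_zero, one_mul, red, coeff_map, coeff_Rz one_ne_zero,
        ArithmeticFunction.sigma_one]
      simp
    have c0 : constantCoeff e = d := by rw [← coeff_zero_eq_constantCoeff_apply, h0]
    have hp1 : (p : ZMod l) + 1 ≠ 0 := fun h => hm (eq_neg_of_add_eq_zero_left h)
    rw [coeff_C_mul, hQ1, mul_comm (e ^ 2), coeff_C_mul, pow_two e, coeff_one_mul, c0, h1] at e1
    rw [coeff_C_mul, hR1, mul_comm (e ^ 3), coeff_C_mul, pow_succ e 2, pow_two e, coeff_one_mul,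
      coeff_one_mul, map_mul, c0, h1] at e2'
    have hc : (-1) ^ 2 * (p : ZMod l) ^ 2 + p ≠ 0 := by
      rw [show (-1) ^ 2 * (p : ZMod l) ^ 2 + p = p * (p + 1) by ring]
      exact mul_ne_zero hp0 hp1
    by_cases hd : d = 0
    · have h := hsmall 1 0 2 (by omega) (by omega)
      rw [hd, zero_pow two_ne_zero, zero_mul, map_zero, zero_mul, mul_eq_zero,
        map_eq_zero_iff _ PowerSeries.C_injective, or_iff_left hc, pow_eq_zero_iff two_ne_zero]
        at h
      rw [h, map_zero] at h1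
      exact h48 h1.symm
    · have hc' : (-1) ^ 3 * (p : ZMod l) ^ 3 + p ≠ 0 := by
        rw [show (-1) ^ 3 * (p : ZMod l) ^ 3 + p = -(p * (p + 1) * d) by simp only [d]; ring]
        exact neg_ne_zero.2 (mul_ne_zero (mul_ne_zero hp0 hp1) hd)
      have k1 : 2 - 5 * d = 0 := by
        refine (mul_eq_zero.1 (?_ : 48 * d * ((-1) ^ 2 * (p : ZMod l) ^ 2 + p) *
          (2 - 5 * d) = 0)).resolve_left (mul_ne_zero (mul_ne_zero h48 hd) hc)
        linear_combination e1
      have k2 : 2 + 7 * d = 0 := by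
        have h72 : (72 : ZMod l) ≠ 0 := by
          rw [show (72 : ZMod l) = 2 ^ 3 * 3 ^ 2 by norm_num]
          exact mul_ne_zero (pow_ne_zero _ h2) (pow_ne_zero _ h3)
        refine (mul_eq_zero.1 (?_ : 72 * d ^ 2 * ((-1) ^ 3 * (p : ZMod l) ^ 3 + p) *
          (2 + 7 * d) = 0)).resolve_left
            (mul_ne_zero (mul_ne_zero h72 (pow_ne_zero _ hd)) hc')
        linear_combination e2'
      have k3 : (12 : ZMod l) * d = 0 := by linear_combination k2 - k1
      exact mul_ne_zero (twelve_ne h5) hd k3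

end FA.EisReducible

end
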