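import Fermat.Agent.EisReducible.Relation
import Fermat.Agent.EisReducible.ConnGenerators

/-!
# No vector fixed by complex conjugation in an Eisenstein module with zero reduction

A finite Galois module inside `J₀(N)[l]` on which Frobenius elements satisfy
`σ + q σ⁻¹ = 1 + q`, with connected model at `l`, has no nonzero vector fixed by an element
where the cyclotomic character is `-1`.
-/

set_option autoImplicit false
set_option linter.style.haveILetI false
set_option linter.unusedSectionVars false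
set_option maxHeartbeats 1000000

noncomputable section

open FA.JTorsion FA.LocalDef ModularCurve

namespace FA.EisReducible

local notation "Qb" => AlgebraicClosure ℚ
local notation "GQ" => AlgebraicClosure ℚ ≃ₐ[ℚ] AlgebraicClosure ℚ

variable {l : ℕ} [hl : Fact l.Prime] {X : Type} [AddCommGroup X] [Module (ZMod l) X]
  (act : GQ →* Module.End (ZMod l) X)

/-- The representation on a stable subspace. -/
def subRep (U : Submodule (ZMod l) X) (hU : ∀ σ, ∀ u ∈ U, act σ u ∈ U) :
    GQ →* Module.End (ZMod l) U where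
  toFun σ := (act σ).restrict (hU σ)
  map_one' := LinearMap.ext fun u => Subtype.ext (by
    show act 1 (u : X) = u
    rw [map_one]; rfl)
  map_mul' σ τ := LinearMap.ext fun u => Subtype.ext (by
    show act (σ * τ) (u : X) = act σ (act τ u)
    rw [map_mul]; rfl)

theorem subRep_coe (U : Submodule (ZMod l) X) (hU : ∀ σ, ∀ u ∈ U, act σ u ∈ U) (σ : GQ) (u : U) :
    (subRep act U hU σ u : X) = act σ u := rfl

/-- The representation on the quotient by a stable subspace. -/
def quotientRep (U : Submodule (ZMod l) X) (hU : ∀ σ, ∀ u ∈ U, act σ u ∈ U) :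
    GQ →* Module.End (ZMod l) (X ⧸ U) where
  toFun σ := U.mapQ U (act σ) fun u hu => hU σ u hu
  map_one' := LinearMap.ext fun w => by
    obtain ⟨u, rfl⟩ := Submodule.Quotient.mk_surjective _ w
    show Submodule.Quotient.mk (act 1 u) = Submodule.Quotient.mk u
    rw [map_one, Module.End.one_apply]
  map_mul' σ τ := LinearMap.ext fun w => by
    obtain ⟨u, rfl⟩ := Submodule.Quotient.mk_surjective _ w
    show Submodule.Quotient.mk (act (σ * τ) u) = Submodule.Quotient.mk (act σ (act τ u))
    rw [map_mul, Module.End.mul_apply]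

/-- The relation at Frobenius elements propagates to the whole group. -/
theorem sq_relation (hfin : ∃ L : IntermediateField ℚ Qb, FiniteDimensional ℚ L ∧
      ∀ σ : GQ, (∀ a ∈ L, σ a = a) → act σ = 1)
    (S : Finset ℕ) (hlS : l ∈ S)
    (hrel : ∀ q : ℕ, q.Prime → q ∉ S → ∀ A : ValuationSubring Qb, A.LiesOverPrime q →
      ∀ σ : GQ, A.IsFrobeniusAt σ q → ∀ x, act σ x + q • act σ⁻¹ x = (1 + q) • x) (σ : GQ) :
    act σ + (cycK l (ZMod l) σ : ZMod l) • act σ⁻¹ =
      (1 + (cycK l (ZMod l) σ : ZMod l)) • 1 := by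
  let χ := cycK l (ZMod l)
  let r : GQ →* Matrix (Fin 2) (Fin 2) (ZMod l) :=
    { toFun := fun σ => Matrix.diagonal ![1, (χ σ : ZMod l)]
      map_one' := by
        rw [map_one, Units.val_one, ← Matrix.diagonal_one]
        congr 1
        ext i; fin_cases i <;> rfl
      map_mul' := fun σ τ => by
        rw [Matrix.diagonal_mul_diagonal, map_mul, Units.val_mul]
        congr 1
        ext i; fin_cases i <;> simp }
  have htr : ∀ σ, (r σ).trace = 1 + (χ σ : ZMod l) := fun σ => by
    show (Matrix.diagonal _).trace = _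
    simp
  obtain ⟨L, hL, hLχ⟩ := exists_field_cycK l (ZMod l)
  have hopen : IsOpen (r.ker : Set GQ) := isOpen_ker_of_field r ⟨L, hL, fun σ hσ => by
    show Matrix.diagonal ![1, (χ σ : ZMod l)] = 1
    rw [show χ σ = 1 from hLχ σ hσ, Units.val_one, ← Matrix.diagonal_one]
    congr 1
    ext i; fin_cases i <;> rfl⟩
  obtain ⟨-, t, ht, he⟩ := relation_everywhere act r (RingHom.id (ZMod l)) hopen hfin S hlS
    (fun q hq hqS A hA τ hτ => by
      have hχ : (χ τ : ZMod l) = q :=
        cycK_frobenius l _ hq (fun h : q = l => hqS (h ▸ hlS)) hA hτ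
      refine ⟨?_, 1 + (χ τ : ZMod l), (htr τ).symm, LinearMap.ext fun x => ?_⟩
      · show (Matrix.diagonal _).det = _
        simp [hχ]
      · rw [LinearMap.add_apply, LinearMap.smul_apply, LinearMap.smul_apply,
          Module.End.one_apply, show (cycK l (ZMod l) τ : ZMod l) = q from hχ,
          Nat.cast_smul_eq_nsmul, hrel q hq hqS A hA τ hτ x,
          show (1 : ZMod l) + (q : ZMod l) = ((1 + q : ℕ) : ZMod l) by push_cast; rfl,
          Nat.cast_smul_eq_nsmul]) σ
  rw [RingHom.id_apply] at ht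
  rw [he, ht, htr]

/-- Where the character is trivial the action is unipotent. -/
theorem unipotent_of_relation {σ : GQ}
    (h : act σ + (cycK l (ZMod l) σ : ZMod l) • act σ⁻¹ =
      (1 + (cycK l (ZMod l) σ : ZMod l)) • 1)
    (hσ : cycK l (ZMod l) σ = 1) : (act σ - 1) * (act σ - 1) = 0 := by
  rw [hσ, Units.val_one, one_smul, one_add_one_eq_two, two_smul] at h
  have e : act σ * act σ⁻¹ = 1 := by rw [← map_mul, mul_inv_cancel, map_one]
  have h' := congrArg (act σ * ·) h
  simp only [mul_add, e, mul_one] at h'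
  rw [sub_mul, mul_sub, mul_one, one_mul,
    show act σ * act σ - act σ - (act σ - 1) = act σ * act σ + 1 - (act σ + act σ) by abel, h',
    sub_self]

variable [Fintype X]

/-- **No fixed vector of complex conjugation in a connected Eisenstein module.** -/
theorem eq_zero_of_connected (N : ℕ) [NeZero N] (hlN : ¬ l ∣ N) (hl2 : l ≠ 2) (ι : X →+ JZero N)
    (hι : Function.Injective ι) (hact : ∀ σ x, ι (act σ x) = σ • ι x)
    (hfin : ∃ L : IntermediateField ℚ Qb, FiniteDimensional ℚ L ∧
      ∀ σ : GQ, (∀ a ∈ L, σ a = a) → act σ = 1)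
    (S : Finset ℕ) (hlS : l ∈ S)
    (hrel : ∀ q : ℕ, q.Prime → q ∉ S → ∀ A : ValuationSubring Qb, A.LiesOverPrime q →
      ∀ σ : GQ, A.IsFrobeniusAt σ q → ∀ x, act σ x + q • act σ⁻¹ x = (1 + q) • x)
    {A : ValuationSubring Qb} (hA : A.LiesOverPrime l)
    (hred : ∀ x, reductionModL A N (ι x) = 0) {c : GQ}
    (hc : (cycK l (ZMod l) c : ZMod l) = -1) {y : X} (hy : act c y = y) : y = 0 := by
  classical
  by_contra hy0
  have huni : ∀ σ, cycK l (ZMod l) σ = 1 → (act σ - 1) * (act σ - 1) = 0 := fun σ hσ =>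
    unipotent_of_relation act (sq_relation act hfin S hlS hrel σ) hσ
  -- a least stable subspace with a nonzero vector fixed by `c`
  obtain ⟨U, ⟨hU, u, huU, hu0, hcu⟩, hmin⟩ := WellFounded.has_min (α := Submodule (ZMod l) X)
    wellFounded_lt {U | (∀ σ, ∀ u ∈ U, act σ u ∈ U) ∧ ∃ u ∈ U, u ≠ 0 ∧ act c u = u}
    ⟨⊤, fun _ _ _ => trivial, y, trivial, hy0, hy⟩
  let g := subRep act U hU
  haveI : Nontrivial U := nontrivial_of_ne (⟨u, huU⟩ : U) 0 fun h => hu0 (congrArg Subtype.val h)
  -- a largest proper stable subspace of it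
  obtain ⟨U', ⟨hU', hne⟩, hmax⟩ := WellFounded.has_min (α := Submodule (ZMod l) U)
    wellFounded_gt {W | (∀ σ, ∀ w ∈ W, g σ w ∈ W) ∧ W ≠ ⊤}
    ⟨⊥, fun σ w hw => by rw [(Submodule.mem_bot _).1 hw, map_zero]; exact Submodule.zero_mem _,
      bot_ne_top⟩
  let ρ := quotientRep g U' hU'
  haveI : Fintype (U ⧸ U') := Fintype.ofFinite _
  haveI : Nontrivial (U ⧸ U') := Submodule.Quotient.nontrivial_iff.2 hne
  have hmk : ∀ σ (w : U), ρ σ (Submodule.Quotient.mk w) = Submodule.Quotient.mk (g σ w) :=
    fun _ _ => rfl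
  have hsq : ∀ σ, cycK l (ZMod l) σ = 1 → (ρ σ - 1) * (ρ σ - 1) = 0 := fun σ hσ =>
    LinearMap.ext fun w => by
      obtain ⟨v, rfl⟩ := Submodule.Quotient.mk_surjective _ w
      have h := LinearMap.congr_fun (huni σ hσ) (v : X)
      simp only [Module.End.mul_apply, LinearMap.sub_apply, Module.End.one_apply,
        LinearMap.zero_apply] at h ⊢
      rw [hmk, ← Submodule.Quotient.mk_sub, hmk, ← Submodule.Quotient.mk_sub,
        show g σ (g σ v - v) - (g σ v - v) = 0 from Subtype.ext h, Submodule.Quotient.mk_zero]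
  have hmodel : ∀ B : ValuationSubring Qb, B.LiesOverPrime l →
      HasModel B (U ⧸ U') fun σ w => ρ σ w := fun B hB =>
    ((FA.FlatModel.hasModel_jZero N hlN hB ι hι (fun σ x => act σ x) hact).of_injective
      (V' := U) (act' := fun σ w => g σ w) U.subtype.toAddMonoidHom Subtype.val_injective
      fun σ _ w => rfl).of_surjective U'.mkQ.toAddMonoidHom (Submodule.Quotient.mk_surjective _)
      fun σ _ w => rfl
  obtain ⟨x, hx0, hx⟩ := exists_fixed_or_cyclo hl2 ρ
    (hfin.imp fun L h => ⟨h.1, fun σ hσ => LinearMap.ext fun w => by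
      obtain ⟨v, rfl⟩ := Submodule.Quotient.mk_surjective _ w
      rw [hmk, show g σ v = v from Subtype.ext (LinearMap.congr_fun (h.2 σ hσ) (v : X))]
      rfl⟩)
    (fun σ hσ => hsq σ (MonoidHom.mem_ker.1
      (Abelianization.commutator_subset_ker (cycK l (ZMod l)) hσ)))
    (fun q hq hql => (FA.Deform.exists_liesOverPrime hq).imp fun B hB =>
      ⟨hB, fun τ hτ => hsq τ (cycK_inertia l (ZMod l) hq hql hB hτ)⟩) hmodel
  -- the quotient is the line of `x`
  have hline : ∀ w : U ⧸ U', ∃ a : ZMod l, a • x = w := by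
    intro w
    obtain ⟨s, hs⟩ : ∃ s : GQ → ZMod l, ∀ σ, ρ σ x = s σ • x := by
      rcases hx with h | h
      · exact ⟨fun _ => 1, fun σ => by rw [h σ, one_smul]⟩
      · exact ⟨fun σ => (cycK l (ZMod l) σ : ZMod l), h⟩
    let W : Submodule (ZMod l) U := (Submodule.span (ZMod l) {x}).comap U'.mkQ
    have hW : ∀ σ, ∀ v ∈ W, g σ v ∈ W := by
      intro σ v hv
      obtain ⟨a, ha⟩ := Submodule.mem_span_singleton.1 hv
      exact Submodule.mem_span_singleton.2 ⟨a * s σ, by
        rw [mul_smul, ← hs, ← map_smul, ha]; exact hmk σ v⟩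
    have hlt : U' < W := lt_of_le_of_ne
      (fun v hv => by
        show Submodule.Quotient.mk v ∈ Submodule.span (ZMod l) {x}
        rw [(Submodule.Quotient.mk_eq_zero U').2 hv]; exact Submodule.zero_mem _)
      fun h => by
        obtain ⟨v, rfl⟩ := Submodule.Quotient.mk_surjective _ x
        refine hx0 ((Submodule.Quotient.mk_eq_zero U').2 ?_)
        rw [h]; exact Submodule.mem_span_singleton_self _
    obtain ⟨v, rfl⟩ := Submodule.Quotient.mk_surjective _ w
    have hv : v ∈ W := by
      rw [show W = ⊤ from by_contra fun hne' => hmax W ⟨hW, hne'⟩ hlt]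
      trivial
    exact Submodule.mem_span_singleton.1 hv
  rcases hx with hx | hx
  · -- a fixed line is a connected module with trivial inertia
    have hconn : HasConnModel A (U ⧸ U') fun σ w => ρ σ w :=
      ((hasConnModel_of_reduction_eq_zero N hlN hA ι hι (fun σ x => act σ x)
        (fun σ _ x => hact σ x) hred).of_injective (V' := U) (act' := fun σ w => g σ w)
        U.subtype.toAddMonoidHom Subtype.val_injective fun σ _ w => rfl).of_surjective
        U'.mkQ.toAddMonoidHom (Submodule.Quotient.mk_surjective _) fun σ _ w => rfl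
    refine hx0 (hconn.eq_zero_of_trivial hA hl2 (fun w => ?_) (fun σ _ w => ?_) x)
    · rw [← Nat.cast_smul_eq_nsmul (ZMod l), ZMod.natCast_self, zero_smul]
    · obtain ⟨a, rfl⟩ := hline w
      show ρ σ (a • x) = a • x
      rw [map_smul, hx σ]
  · -- a cyclotomic line kills the fixed vector, against the minimality
    obtain ⟨a, ha⟩ := hline (Submodule.Quotient.mk ⟨u, huU⟩)
    have hneg : ρ c (Submodule.Quotient.mk ⟨u, huU⟩) = -Submodule.Quotient.mk ⟨u, huU⟩ := by
      rw [← ha, map_smul, hx c, hc, neg_one_smul, smul_neg]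
    rw [hmk, show g c ⟨u, huU⟩ = ⟨u, huU⟩ from Subtype.ext hcu, eq_neg_iff_add_eq_zero,
      ← two_smul (ZMod l), smul_eq_zero] at hneg
    have h2 : (2 : ZMod l) ≠ 0 := fun h => hl2 ((Nat.prime_dvd_prime_iff_eq hl.out Nat.prime_two).1
      ((ZMod.natCast_eq_zero_iff 2 l).1 (by exact_mod_cast h)))
    have huU' : (⟨u, huU⟩ : U) ∈ U' :=
      (Submodule.Quotient.mk_eq_zero U').1 (hneg.resolve_left h2)
    refine hmin (U'.map U.subtype) ⟨fun σ => ?_, u, ⟨_, huU', rfl⟩, hu0, hcu⟩ ?_
    · rintro _ ⟨w, hw, rfl⟩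
      exact ⟨g σ w, hU' σ w hw, rfl⟩
    · refine lt_of_le_of_ne (Submodule.map_subtype_le U U') fun h => hne ?_
      refine Submodule.map_injective_of_injective (Submodule.injective_subtype U) ?_
      rw [h, Submodule.map_subtype_top]

end FA.EisReducible

end
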