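import Fermat.Agent.Eisenstein.UpperBasic
import Fermat.Agent.Tau.FiltrationModP

/-!
# Traces to level one of powers of a weight two form, modulo a prime

For `g` of weight two on `Γ₀(p)` with integral series `G` and a level one form `H` of weight `k`,
the trace of `(p W g) ^ a · H(p τ)` gives a level one form of weight `2 a + k`.  When
`G(q) ≡ e(q ^ p)` modulo `l` it is `e ^ a · ((-1) ^ a p ^ (k + a) H(q ^ p) + p U_p H)` modulo `l`.
-/

set_option autoImplicit false

noncomputable section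

open UpperHalfPlane hiding I
open PowerSeries CongruenceSubgroup FA.Eis FA.SwinnertonDyer
open scoped MatrixGroups ModularForm

namespace FA.EisReducible

variable {p : ℕ} [Fact p.Prime]

omit [Fact p.Prime] in
theorem W_pow (f : ℍ → ℂ) (m : ℤ) (a : ℕ) : W p (a * m) (f ^ a) = W p m f ^ a := by
  induction a with
  | zero =>
    funext τ
    rw [Nat.cast_zero, zero_mul, pow_zero, pow_zero, W, ModularForm.is_invariant_one]
    rfl
  | succ n ih =>
    rw [pow_succ, pow_succ, show ((n + 1 : ℕ) : ℤ) * m = n * m + m by push_cast; ring, W_mul, ih]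

theorem Up_Vp_mul {R : Type*} [CommRing R] (p : ℕ) [NeZero p] (A B : PowerSeries R) :
    Up p (Vp p A * B) = A * Up p B := by
  ext n
  rw [coeff_Up, PowerSeries.coeff_mul, PowerSeries.coeff_mul]
  have hinj : ∀ x ∈ Finset.HasAntidiagonal.antidiagonal n, ∀ y ∈
      Finset.HasAntidiagonal.antidiagonal n,
      ((x.1 * p, x.2 * p) : ℕ × ℕ) = (y.1 * p, y.2 * p) → x = y := fun x _ y _ h => by
    simp only [Prod.mk.injEq] at h
    exact Prod.ext (Nat.eq_of_mul_eq_mul_right (NeZero.pos p) h.1)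
      (Nat.eq_of_mul_eq_mul_right (NeZero.pos p) h.2)
  rw [← Finset.sum_subset (s₁ := (Finset.HasAntidiagonal.antidiagonal n).image
    fun x => (x.1 * p, x.2 * p)) (fun x hx => ?_) (fun x hx hx' => ?_), Finset.sum_image hinj]
  · refine Finset.sum_congr rfl fun x _ => ?_
    rw [coeff_Vp, if_pos (dvd_mul_left p x.1), Nat.mul_div_cancel _ (NeZero.pos p), coeff_Up]
  · obtain ⟨y, hy, rfl⟩ := Finset.mem_image.1 hx
    rw [Finset.HasAntidiagonal.mem_antidiagonal] at hy ⊢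
    simp only
    rw [← add_mul, hy]
  · rw [coeff_Vp]
    split_ifs with hd
    · exfalso
      obtain ⟨u, hu⟩ := hd
      rw [Finset.HasAntidiagonal.mem_antidiagonal] at hx
      have h2 : p ∣ x.2 := by
        have h : p ∣ x.1 + x.2 := hx ▸ dvd_mul_left p n
        exact (Nat.dvd_add_right ⟨u, hu⟩).1 h
      obtain ⟨v, hv⟩ := h2
      refine hx' (Finset.mem_image.2 ⟨(u, v), ?_, Prod.ext ?_ ?_⟩)
      · rw [Finset.HasAntidiagonal.mem_antidiagonal]
        refine Nat.eq_of_mul_eq_mul_right (NeZero.pos p) ?_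
        rw [← hx, hu, hv]
        ring
      · rw [hu]; ring
      · rw [hv]; ring
    · rw [zero_mul]

/-- The twice iterated `U_p` fixes a form of weight two. -/
theorem Up_Up_eq {g : ℍ → ℂ} (hg : IsLv p 2 g) {A : PowerSeries ℂ} (hA : HasQ 1 g A) :
    Up p (Up p A) = A := by
  have h := hasQ_trace even_two hg hA (hasQ_W_weight_two hg hA)
  rw [(isLv_one_trace even_two hg).levelOne_weight_two] at h
  have h2 := HasQ.eq_zero_of_fun h one_pos
  rw [map_neg, map_smul, smul_neg, smul_smul, mul_inv_cancel₀ (NeZero.ne (p : ℂ)), one_smul,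
    ← sub_eq_add_neg, sub_eq_zero] at h2
  exact h2.symm

/-- The integral series of the trace. -/
def Tz (p k a : ℕ) [NeZero p] (G H : PowerSeries ℤ) : PowerSeries ℤ :=
  C ((-1) ^ a * (p : ℤ) ^ (k + a)) * (Up p G ^ a * Vp p H) + C (p : ℤ) * Up p (G ^ a * H)

/-- **The trace of a power.** -/
theorem exists_trace_pow {g : ℍ → ℂ} (hg : IsLv p 2 g) {G : PowerSeries ℤ}
    (hG : HasQ 1 g (toC G)) {k : ℕ} (hk : Even k) {H : ℍ → ℂ} {Hz : PowerSeries ℤ}
    (hH : IsLv 1 k H) (hQ : HasQ 1 H (toC Hz)) (a : ℕ) :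
    ∃ P : ℍ → ℂ, IsLv 1 ((2 * a + k : ℕ) : ℤ) P ∧ HasQ 1 P (toC (Tz p k a G Hz)) := by
  set s : ℂ := (p : ℂ)
  have hp : s ≠ 0 := NeZero.ne _
  set g₁ : ℍ → ℂ := s • W p 2 g
  have hg₁ : IsLv p 2 g₁ := (hg.W even_two).smul s
  have hg₁Q : HasQ 1 g₁ (-toC (Up p G)) := by
    have h := (hasQ_W_weight_two hg hG).smul s
    rwa [smul_neg, smul_smul, mul_inv_cancel₀ hp, one_smul, ← toC_Up] at h
  have hWg₁ : W p 2 g₁ = s⁻¹ • g := by
    rw [W_smul, W_W p even_two, smul_smul]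
    congr 1
    rw [zpow_neg, zpow_two, mul_inv, ← mul_assoc, mul_inv_cancel₀ hp, one_mul]
  have hk2 : Even ((a : ℤ) * 2 + (k : ℤ)) :=
    (even_two.mul_left _).add (by exact_mod_cast hk)
  have hf := (hg₁.pow a).mul (hH.dil p)
  have hA : HasQ 1 (g₁ ^ a * dil p H) ((-toC (Up p G)) ^ a * toC (Vp p Hz)) := by
    rw [toC_Vp]
    exact (hg₁Q.pow one_pos a).mul one_pos (hQ.dil p)
  have hB : HasQ 1 (W p ((a : ℤ) * 2 + k) (g₁ ^ a * dil p H))
      ((s⁻¹ • toC G) ^ a * (s ^ (-(k : ℤ)) • toC Hz)) := by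
    rw [W_mul, W_pow, hWg₁, W_dil hH]
    exact ((hG.smul _).pow one_pos a).mul one_pos (hQ.smul _)
  refine ⟨s ^ (k + a) • (g₁ ^ a * dil p H + s • avg p (W p ((a : ℤ) * 2 + k) (g₁ ^ a * dil p H))),
    ((isLv_one_trace hk2 hf).smul _).congr_weight (by push_cast; ring), ?_⟩
  have h := (hasQ_trace hk2 hf hA hB).smul (s ^ (k + a))
  convert h using 1
  have e : (s⁻¹ • toC G) ^ a * (s ^ (-(k : ℤ)) • toC Hz) =
      (s⁻¹ ^ a * s ^ (-(k : ℤ))) • (toC G ^ a * toC Hz) := by
    rw [smul_pow, smul_mul_smul_comm]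
  rw [e, map_smul, smul_smul, smul_add, smul_smul,
    show s ^ (k + a) * ((p : ℂ) * (s⁻¹ ^ a * s ^ (-(k : ℤ)))) = s by
      rw [zpow_neg, zpow_natCast, inv_pow, pow_add]
      field_simp
      rfl]
  simp only [Tz, map_add, map_mul, map_pow, map_neg, map_one, toC_C, toC_Up,
    PowerSeries.smul_eq_C_mul, Int.cast_natCast]
  rw [neg_pow, one_pow, mul_one, show s = (p : ℂ) from rfl]
  ring

variable {l : ℕ}

/-- Its reduction when `G(q) ≡ e(q ^ p)`. -/
theorem map_Tz {G : PowerSeries ℤ} {e : PowerSeries (ZMod l)}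
    (hG : PowerSeries.map (Int.castRingHom (ZMod l)) G = Vp p e) (k a : ℕ) (H : PowerSeries ℤ) :
    PowerSeries.map (Int.castRingHom (ZMod l)) (Tz p k a G H) =
      e ^ a * (C ((-1) ^ a * (p : ZMod l) ^ (k + a)) *
          Vp p (PowerSeries.map (Int.castRingHom (ZMod l)) H) +
        C (p : ZMod l) * Up p (PowerSeries.map (Int.castRingHom (ZMod l)) H)) := by
  simp only [Tz, map_add, map_mul (PowerSeries.map _), map_pow (PowerSeries.map _), map_Up, hG,
    Up_mul_Vp, map_Vp, ← map_pow (Vp p), Up_Vp_mul, eq_intCast, Int.cast_mul,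
    Int.cast_pow, Int.cast_neg, Int.cast_one, Int.cast_natCast, map_neg, map_one, map_natCast]
  simp only [map_mul, map_pow, map_neg, map_one, map_natCast]
  ring

/-- The trace gives forms modulo `l`. -/
theorem isFormModP_trace [Fact l.Prime] {g : ℍ → ℂ} (hg : IsLv p 2 g) {G : PowerSeries ℤ}
    (hG : HasQ 1 g (toC G)) {k : ℕ} (hk : Even k) {H : ℍ → ℂ} {Hz : PowerSeries ℤ}
    (hH : IsLv 1 k H) (hQ : HasQ 1 H (toC Hz)) (a : ℕ) :
    IsFormModP l (2 * a + k) (PowerSeries.map (Int.castRingHom (ZMod l)) (Tz p k a G Hz)) := by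
  obtain ⟨P, hP, hPQ⟩ := exists_trace_pow hg hG hk hH hQ a
  exact ⟨hP.toMF, Tz p k a G Hz, hPQ.qExpansion_eq one_pos, rfl⟩

end FA.EisReducible

end
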