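import Fermat.Agent.EisReducible.Relation
import Mathlib.RingTheory.TensorProduct.Finite

/-!
# Galois modules with a Hecke action, modulo the kernel of a system

The reduction of the module modulo the kernel of a system `θ` satisfies the relation of a
representation with the traces of `θ`; with a stable line these traces are `1 + q`.
-/

set_option autoImplicit false
set_option linter.style.haveILetI false
set_option linter.unusedSectionVars false
set_option maxHeartbeats 1000000

noncomputable section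

open FA.JTorsion
open scoped Matrix

namespace FA.EisReducible

local notation "Qb" => AlgebraicClosure ℚ
local notation "GQ" => AlgebraicClosure ℚ ≃ₐ[ℚ] AlgebraicClosure ℚ

variable {T M : Type} [CommRing T] [AddCommGroup M] [Module T M]
  (γ : GQ →* Module.End T M) (I : Ideal T)

theorem smul_top_le_comap (σ : GQ) :
    (I • ⊤ : Submodule T M) ≤ (I • ⊤ : Submodule T M).comap (γ σ) := by
  rw [← Submodule.map_le_iff_le_comap, Submodule.map_smul'']
  exact Submodule.smul_mono le_rfl le_top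

/-- The action on the reduction modulo an ideal. -/
def quotRep : GQ →* Module.End (T ⧸ I) (M ⧸ (I • ⊤ : Submodule T M)) where
  toFun σ :=
    { toFun := (I • ⊤ : Submodule T M).mapQ (I • ⊤ : Submodule T M) (γ σ)
        (smul_top_le_comap γ I σ)
      map_add' := map_add _
      map_smul' := fun c x => by
        obtain ⟨t, rfl⟩ := Ideal.Quotient.mk_surjective c
        exact map_smul ((I • ⊤ : Submodule T M).mapQ (I • ⊤ : Submodule T M) (γ σ)
          (smul_top_le_comap γ I σ)) t x }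
  map_one' := LinearMap.ext fun w => by
    obtain ⟨y, rfl⟩ := Submodule.Quotient.mk_surjective _ w
    show Submodule.Quotient.mk (γ 1 y) = Submodule.Quotient.mk y
    rw [map_one, Module.End.one_apply]
  map_mul' σ τ := LinearMap.ext fun w => by
    obtain ⟨y, rfl⟩ := Submodule.Quotient.mk_surjective _ w
    show Submodule.Quotient.mk (γ (σ * τ) y) = Submodule.Quotient.mk (γ σ (γ τ y))
    rw [map_mul, Module.End.mul_apply]

theorem quotRep_mk (σ : GQ) (y : M) :
    quotRep γ I σ (Submodule.Quotient.mk y) = Submodule.Quotient.mk (γ σ y) := rfl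

theorem mk_smul_mk (t : T) (y : M) :
    Ideal.Quotient.mk I t • (Submodule.Quotient.mk y : M ⧸ (I • ⊤ : Submodule T M)) =
      Submodule.Quotient.mk (t • y) := rfl

variable {l : ℕ} [hl : Fact l.Prime] {k : Type} [Field k] [CharP k l]

/-- A functional compatible with `θ` survives in the reduction modulo its kernel. -/
theorem nontrivial_quot_of_functional (θ : T →+* k) (g : M →+ k)
    (hg : ∀ (t : T) (x : M), g (t • x) = θ t * g x) {x : M} (hx : g x ≠ 0) :
    Nontrivial (M ⧸ (RingHom.ker θ • ⊤ : Submodule T M)) := by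
  refine ⟨⟨Submodule.Quotient.mk x, 0, fun h => hx ?_⟩⟩
  rw [Submodule.Quotient.mk_eq_zero] at h
  refine Submodule.smul_induction_on h (fun t ht y _ => ?_) fun a b ha hb => by
    rw [map_add, ha, hb, add_zero]
  rw [hg, RingHom.mem_ker.1 ht, zero_mul]

/-- **With a stable line the values of the system are `1 + q`.** -/
theorem eisenstein_of_galois_module [Module.Finite ℤ T] [Fintype M] (hl2 : l ≠ 2) (θ : T →+* k)
    [Nontrivial (M ⧸ (RingHom.ker θ • ⊤ : Submodule T M))]
    (hγ : ∃ L : IntermediateField ℚ Qb, FiniteDimensional ℚ L ∧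
      ∀ σ : GQ, (∀ a ∈ L, σ a = a) → γ σ = 1)
    (t : ℕ → T) (S : Finset ℕ) (hlS : l ∈ S)
    (hrel : ∀ q : ℕ, q.Prime → q ∉ S → ∀ A : ValuationSubring Qb, A.LiesOverPrime q →
      ∀ σ : GQ, A.IsFrobeniusAt σ q → ∀ y, γ σ y + q • γ σ⁻¹ y = t q • y)
    (haway : ∀ q : ℕ, q.Prime → q ≠ l → ∃ A : ValuationSubring Qb, A.LiesOverPrime q ∧
      ∀ σ ∈ A.inertiaSubgroupIn ℚ, ∀ y, γ σ (γ σ y) + y = 2 • γ σ y)
    (hmodel : ∀ A : ValuationSubring Qb, A.LiesOverPrime l →
      FA.LocalDef.HasModel A M fun σ y => γ σ y)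
    (r : GQ →* Matrix (Fin 2) (Fin 2) k) (hopen : IsOpen (r.ker : Set GQ))
    (hr : ∀ q : ℕ, q.Prime → q ∉ S → ∀ A : ValuationSubring Qb, A.LiesOverPrime q →
      ∀ σ : GQ, A.IsFrobeniusAt σ q → (r σ).trace = θ (t q) ∧ (r σ).det = (q : k))
    {v : Fin 2 → k} (hv : v ≠ 0) (hline : ∀ σ, ∃ c : k, r σ *ᵥ v = c • v)
    {q : ℕ} (hq : q.Prime) (hqS : q ∉ S) : θ (t q) = 1 + (q : k) := by
  classical
  set m : Ideal T := RingHom.ker θ
  haveI : m.IsPrime := RingHom.ker_isPrime θ
  have hlm : (l : T) ∈ m := by rw [RingHom.mem_ker, map_natCast, CharP.cast_eq_zero]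
  haveI : Module.Finite ℤ (T ⧸ m) :=
    Module.Finite.of_surjective (Ideal.Quotient.mk m).toAddMonoidHom.toIntLinearMap
      Ideal.Quotient.mk_surjective
  haveI : Finite (T ⧸ m) := Module.finite_of_fg_torsion (M := T ⧸ m) fun {x} => by
    refine ⟨⟨(l : ℤ), mem_nonZeroDivisors_of_ne_zero (Int.natCast_ne_zero.2 hl.out.ne_zero)⟩, ?_⟩
    show (l : ℤ) • x = 0
    obtain ⟨t, rfl⟩ := Ideal.Quotient.mk_surjective x
    rw [natCast_zsmul, nsmul_eq_mul, ← map_natCast (Ideal.Quotient.mk m), ← map_mul,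
      Ideal.Quotient.eq_zero_iff_mem]
    exact m.mul_mem_right t hlm
  haveI : m.IsMaximal := Ideal.Quotient.maximal_of_isField _ (Finite.isField_of_domain (T ⧸ m))
  letI : Field (T ⧸ m) := Ideal.Quotient.field m
  let θb : (T ⧸ m) →+* k := RingHom.kerLift θ
  haveI : CharP (T ⧸ m) l := (RingHom.charP_iff θb θb.injective l).2 inferInstance
  have hlW : ∀ w : M ⧸ (m • ⊤ : Submodule T M), l • w = 0 := fun w => by
    rw [← Nat.cast_smul_eq_nsmul (T ⧸ m), CharP.cast_eq_zero, zero_smul]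
  letI : Module (ZMod l) (M ⧸ (m • ⊤ : Submodule T M)) := AddCommGroup.zmodModule hlW
  haveI : Finite (M ⧸ (m • ⊤ : Submodule T M)) :=
    Finite.of_surjective _ (Submodule.Quotient.mk_surjective _)
  letI : Fintype (M ⧸ (m • ⊤ : Submodule T M)) := Fintype.ofFinite _
  obtain ⟨A, hA⟩ := FA.Deform.exists_liesOverPrime hq
  obtain ⟨σ, hσ⟩ := FA.Deform.exists_isFrobeniusAt hq hA
  rw [← (hr q hq hqS A hA σ hσ).1]
  refine trace_eq_of_module (quotRep γ m) r θb hl2 hopen ?_ S hlS
    (fun q' hq' hqS' B hB τ hτ => ?_) (fun q' hq' hql' => ?_) (fun B hB => ?_) hv hline hq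
    (fun h : q = l => hqS (h ▸ hlS)) hA hσ
  · obtain ⟨L, hL, hLγ⟩ := hγ
    exact ⟨L, hL, fun τ hτ => LinearMap.ext fun w => by
      obtain ⟨y, rfl⟩ := Submodule.Quotient.mk_surjective _ w
      rw [quotRep_mk, hLγ τ hτ]
      rfl⟩
  · obtain ⟨htr, hd⟩ := hr q' hq' hqS' B hB τ hτ
    refine ⟨hd, Ideal.Quotient.mk m (t q'), htr.symm, LinearMap.ext fun w => ?_⟩
    obtain ⟨y, rfl⟩ := Submodule.Quotient.mk_surjective _ w
    rw [LinearMap.add_apply, LinearMap.smul_apply, LinearMap.smul_apply, Module.End.one_apply,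
      quotRep_mk, quotRep_mk, cycK_frobenius l _ hq' (fun h : q' = l => hqS' (h ▸ hlS)) hB hτ,
      Nat.cast_smul_eq_nsmul, ← Submodule.Quotient.mk_smul, ← Submodule.Quotient.mk_add, mk_smul_mk,
      hrel q' hq' hqS' B hB τ hτ y]
  · obtain ⟨B, hB, hBy⟩ := haway q' hq' hql'
    refine ⟨B, hB, fun τ hτ w => ?_⟩
    obtain ⟨y, rfl⟩ := Submodule.Quotient.mk_surjective _ w
    rw [quotRep_mk, quotRep_mk, ← Submodule.Quotient.mk_smul, ← Submodule.Quotient.mk_add,
      hBy τ hτ y]
  · exact (hmodel B hB).of_surjective (m • ⊤ : Submodule T M).mkQ.toAddMonoidHom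
      (Submodule.Quotient.mk_surjective _) fun τ _ y => rfl

end FA.EisReducible

end
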