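import Fermat.Agent.EisReducible.Simple
import Fermat.Agent.JTorsion.ResidualAbs
import Fermat.Agent.Density.Traces
import Fermat.Agent.LocalDef.Residual

/-!
# A module with the quadratic relation of a reducible representation

If the module is killed by `l`, has a model at `l` and unipotent inertia elsewhere, the trace of
the representation at a Frobenius element over `q` is `1 + q`.
-/

set_option autoImplicit false
set_option linter.style.haveILetI false
set_option linter.unusedSectionVars false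
set_option maxHeartbeats 1000000

noncomputable section

open FA.JTorsion
open scoped Matrix

namespace FA.EisReducible

local notation "Qb" => AlgebraicClosure ℚ
local notation "GQ" => AlgebraicClosure ℚ ≃ₐ[ℚ] AlgebraicClosure ℚ

/-- The recursion of the quadratic relation along powers. -/
theorem relation_step {R A G : Type*} [CommRing R] [Ring A] [Algebra R A] [Group G] (ρ : G →* A)
    (χ : G →* Rˣ) (g : G) (n : ℕ) {t a b : R} (ht : ρ g + (χ g : R) • ρ g⁻¹ = t • 1)
    (ha : ρ (g ^ n) + (χ (g ^ n) : R) • ρ (g ^ n)⁻¹ = a • 1)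
    (hb : ρ (g ^ (n + 1)) + (χ (g ^ (n + 1)) : R) • ρ (g ^ (n + 1))⁻¹ = b • 1) :
    ρ (g ^ (n + 2)) + (χ (g ^ (n + 2)) : R) • ρ (g ^ (n + 2))⁻¹ =
      (t * b - (χ g : R) * a) • 1 := by
  have e : (ρ g + (χ g : R) • ρ g⁻¹) *
      (ρ (g ^ (n + 1)) + (χ (g ^ (n + 1)) : R) • ρ (g ^ (n + 1))⁻¹) =
      (ρ (g ^ (n + 2)) + (χ (g ^ (n + 2)) : R) • ρ (g ^ (n + 2))⁻¹) +
        (χ g : R) • (ρ (g ^ n) + (χ (g ^ n) : R) • ρ (g ^ n)⁻¹) := by
    simp only [add_mul, mul_add, smul_add, smul_mul_assoc, mul_smul_comm, smul_smul, ← map_mul,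
      ← Units.val_mul]
    rw [show g * g ^ (n + 1) = g ^ (n + 2) from (pow_succ' g (n + 1)).symm,
      show g * (g ^ (n + 1))⁻¹ = (g ^ n)⁻¹ by rw [pow_succ, mul_inv_rev, mul_inv_cancel_left],
      show g⁻¹ * g ^ (n + 1) = g ^ n by rw [pow_succ', inv_mul_cancel_left],
      show g⁻¹ * (g ^ (n + 1))⁻¹ = (g ^ (n + 2))⁻¹ by rw [← mul_inv_rev, ← pow_succ]]
    rw [show g ^ (n + 1) * g = g ^ (n + 2) from (pow_succ g (n + 1)).symm,
      show g * g ^ n = g ^ (n + 1) from (pow_succ' g n).symm]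
    abel
  rw [ht, hb, smul_mul_assoc, one_mul, smul_smul, ha, smul_smul] at e
  rw [sub_smul, eq_sub_iff_add_eq]
  exact e.symm

/-- With a stable line the trace of a commutator is `2` and its determinant `1`. -/
theorem trace_det_commutator {k : Type} [Field k] (r : GQ →* Matrix (Fin 2) (Fin 2) k)
    {v : Fin 2 → k} (hv : v ≠ 0) (hline : ∀ σ, ∃ c : k, r σ *ᵥ v = c • v) {σ : GQ}
    (hσ : σ ∈ commutator GQ) : (r σ).trace = 2 ∧ (r σ).det = 1 := by
  choose a ha using hline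
  let α : GQ →* k :=
    { toFun := a
      map_one' := smul_left_injective k hv (by
        show a 1 • v = (1 : k) • v
        rw [← ha 1, map_one, Matrix.one_mulVec, one_smul])
      map_mul' := fun s t => smul_left_injective k hv (by
        show a (s * t) • v = (a s * a t) • v
        rw [← ha (s * t), map_mul, ← Matrix.mulVec_mulVec, ha t, Matrix.mulVec_smul, ha s,
          smul_smul, mul_comm]) }
  let δ : GQ →* k := (Matrix.detMonoidHom.comp r : GQ →* k)
  have h1 : a σ = 1 := by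
    have h := MonoidHom.mem_ker.1 (Abelianization.commutator_subset_ker α.toHomUnits hσ)
    exact congrArg Units.val h
  have h2 : (r σ).det = 1 := by
    have h := MonoidHom.mem_ker.1 (Abelianization.commutator_subset_ker δ.toHomUnits hσ)
    exact congrArg Units.val h
  refine ⟨?_, h2⟩
  have h0 : (r σ - a σ • 1).det = 0 := Matrix.exists_mulVec_eq_zero_iff.mp
    ⟨v, hv, by rw [Matrix.sub_mulVec, Matrix.smul_mulVec, Matrix.one_mulVec, ha σ, sub_self]⟩
  rw [h1] at h0
  simp [Matrix.det_fin_two, Matrix.trace_fin_two] at h0 h2 ⊢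
  linear_combination -h0 + h2

variable {l : ℕ} [hl : Fact l.Prime] {R k : Type} [Field R] [CharP R l] [Field k] [CharP k l]
  {W : Type} [AddCommGroup W] [Module R W] (ρ : GQ →* Module.End R W)
  (r : GQ →* Matrix (Fin 2) (Fin 2) k) (θ : R →+* k)

/-- The relation of `r` holds on the module at every element. -/
theorem relation_everywhere (hopen : IsOpen (r.ker : Set GQ))
    (hρ : ∃ L : IntermediateField ℚ Qb, FiniteDimensional ℚ L ∧
      ∀ σ : GQ, (∀ a ∈ L, σ a = a) → ρ σ = 1)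
    (S : Finset ℕ) (hlS : l ∈ S)
    (hfrob : ∀ q : ℕ, q.Prime → q ∉ S → ∀ A : ValuationSubring Qb, A.LiesOverPrime q →
      ∀ σ : GQ, A.IsFrobeniusAt σ q → (r σ).det = (q : k) ∧
        ∃ t : R, θ t = (r σ).trace ∧ ρ σ + (cycK l R σ : R) • ρ σ⁻¹ = t • 1) (σ : GQ) :
    (r σ).det = θ (cycK l R σ : R) ∧
      ∃ t : R, θ t = (r σ).trace ∧ ρ σ + (cycK l R σ : R) • ρ σ⁻¹ = t • 1 := by
  obtain ⟨L, hL, hLρ⟩ := hρ
  obtain ⟨L', hL', h'⟩ := exists_field_cycK l R
  let χ := cycK l R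
  let N := ((ρ.prod χ).prod r).ker
  have hN : IsOpen (N : Set GQ) := by
    have h1 : IsOpen ((ρ.prod χ).ker : Set GQ) := isOpen_ker_of_field _
      ⟨L ⊔ L', inferInstance, fun σ hσ => Prod.ext
        (hLρ σ fun a ha => hσ a ((le_sup_left : L ≤ L ⊔ L') ha))
        (h' σ fun a ha => hσ a ((le_sup_right : L' ≤ L ⊔ L') ha))⟩
    refine Subgroup.isOpen_mono (H₁ := (ρ.prod χ).ker ⊓ r.ker) (fun σ hσ => ?_) ?_
    · exact MonoidHom.mem_ker.2 (Prod.ext (MonoidHom.mem_ker.1 hσ.1) (MonoidHom.mem_ker.1 hσ.2))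
    · rw [Subgroup.coe_inf]; exact h1.inter hopen
  refine FA.Density.forall_of_frobenius_pow N hN (fun σ => (r σ).det = θ (χ σ : R) ∧
      ∃ t : R, θ t = (r σ).trace ∧ ρ σ + (χ σ : R) • ρ σ⁻¹ = t • 1) ?_ S ?_ σ
  · rintro τ n hn ⟨hd, s, hs1, hs2⟩
    obtain ⟨h12, h3⟩ := Prod.ext_iff.1 (MonoidHom.mem_ker.1 hn)
    obtain ⟨h1, h2⟩ := Prod.ext_iff.1 h12
    have h4 : ρ n⁻¹ = 1 := by
      have h5 : ρ n⁻¹ * ρ n = 1 := by rw [← map_mul, inv_mul_cancel, map_one]
      rwa [show ρ n = 1 from h1, mul_one] at h5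
    refine ⟨?_, s, ?_, ?_⟩
    · rw [map_mul, map_mul, show r n = 1 from h3, show χ n = 1 from h2, mul_one, mul_one, hd]
    · rw [hs1, map_mul, show r n = 1 from h3, mul_one]
    · rw [map_mul, map_mul, mul_inv_rev, map_mul, show ρ n = 1 from h1, h4,
        show χ n = 1 from h2, mul_one, mul_one, one_mul]
      exact hs2
  · intro q hq hqS A hA τ hτ n
    obtain ⟨hd, t, ht1, ht2⟩ := hfrob q hq hqS A hA τ hτ
    have hd' : (r τ).det = θ (χ τ : R) := by
      rw [hd, cycK_frobenius l R hq (fun h : q = l => hqS (h ▸ hlS)) hA hτ, map_natCast]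
    induction n using Nat.twoStepInduction with
    | zero => exact ⟨by simp, 2, by simp [map_ofNat, Matrix.trace_one], by
        rw [pow_zero, inv_one, map_one, map_one, Units.val_one, one_smul, two_smul]⟩
    | one => exact ⟨by rwa [pow_one], t, by rwa [pow_one], by rw [pow_one]; exact ht2⟩
    | more n ih1 ih2 =>
      obtain ⟨-, a, ha1, ha2⟩ := ih1
      obtain ⟨-, b, hb1, hb2⟩ := ih2
      refine ⟨?_, _, ?_, relation_step ρ χ τ n ht2 ha2 hb2⟩
      · rw [map_pow, map_pow, Matrix.det_pow, hd', Units.val_pow_eq_pow_val, map_pow]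
      · rw [map_sub, map_mul, map_mul, ht1, hb1, ← hd', ha1, map_pow, map_pow, map_pow,
          show r τ ^ (n + 2) = r τ ^ n * (r τ * r τ) by rw [pow_add, pow_two],
          FA.LocalDef.mul_self_two, mul_sub, mul_smul_comm, mul_smul_comm, mul_one, ← pow_succ,
          Matrix.trace_sub, Matrix.trace_smul, Matrix.trace_smul, smul_eq_mul, smul_eq_mul]

/-- **The trace at a Frobenius element is `1 + q`.** -/
theorem trace_eq_of_module [Fintype W] [Nontrivial W] [Module (ZMod l) W] (hl2 : l ≠ 2)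
    (hopen : IsOpen (r.ker : Set GQ))
    (hρ : ∃ L : IntermediateField ℚ Qb, FiniteDimensional ℚ L ∧
      ∀ σ : GQ, (∀ a ∈ L, σ a = a) → ρ σ = 1)
    (S : Finset ℕ) (hlS : l ∈ S)
    (hfrob : ∀ q : ℕ, q.Prime → q ∉ S → ∀ A : ValuationSubring Qb, A.LiesOverPrime q →
      ∀ σ : GQ, A.IsFrobeniusAt σ q → (r σ).det = (q : k) ∧
        ∃ t : R, θ t = (r σ).trace ∧ ρ σ + (cycK l R σ : R) • ρ σ⁻¹ = t • 1)
    (haway : ∀ q : ℕ, q.Prime → q ≠ l → ∃ A : ValuationSubring Qb, A.LiesOverPrime q ∧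
      ∀ σ ∈ A.inertiaSubgroupIn ℚ, ∀ w, ρ σ (ρ σ w) + w = 2 • ρ σ w)
    (hmodel : ∀ A : ValuationSubring Qb, A.LiesOverPrime l →
      FA.LocalDef.HasModel A W fun σ x => ρ σ x)
    {v : Fin 2 → k} (hv : v ≠ 0) (hline : ∀ σ, ∃ c : k, r σ *ᵥ v = c • v)
    {q : ℕ} (hq : q.Prime) (hql : q ≠ l) {A : ValuationSubring Qb} (hA : A.LiesOverPrime q)
    {σ : GQ} (hσ : A.IsFrobeniusAt σ q) : (r σ).trace = 1 + (q : k) := by
  classical
  have hrel := relation_everywhere ρ r θ hopen hρ S hlS hfrob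
  let act : GQ →* Module.End (ZMod l) W :=
    { toFun := fun σ => (ρ σ).toAddMonoidHom.toZModLinearMap l
      map_one' := LinearMap.ext fun w => LinearMap.congr_fun (map_one ρ) w
      map_mul' := fun σ τ => LinearMap.ext fun w => LinearMap.congr_fun (map_mul ρ σ τ) w }
  have hsq : ∀ σ, (∀ w, ρ σ (ρ σ w) + w = 2 • ρ σ w) → (act σ - 1) * (act σ - 1) = 0 :=
    fun σ h => LinearMap.ext fun w => by
      show ρ σ (ρ σ w - w) - (ρ σ w - w) = 0
      calc ρ σ (ρ σ w - w) - (ρ σ w - w) = ρ σ (ρ σ w) + w - 2 • ρ σ w := by rw [map_sub]; abel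
        _ = 0 := sub_eq_zero.2 (h w)
  have hhom : ∀ τ ∈ commutator GQ, (act τ - 1) * (act τ - 1) = 0 := fun τ hτ => by
    obtain ⟨htr, hd⟩ := trace_det_commutator r hv hline hτ
    obtain ⟨hd', s, hs1, hs2⟩ := hrel τ
    have hs : s = 2 := θ.injective (by rw [hs1, htr, map_ofNat])
    have hχ1 : (cycK l R τ : R) = 1 := θ.injective (by rw [← hd', hd, map_one])
    rw [hs, hχ1, one_smul] at hs2
    refine hsq τ fun w => ?_
    have h := LinearMap.congr_fun hs2 (ρ τ w)
    rw [LinearMap.add_apply, LinearMap.smul_apply, Module.End.one_apply, ← Module.End.mul_apply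
      (ρ τ⁻¹), ← map_mul, inv_mul_cancel, map_one, Module.End.one_apply] at h
    rw [h, ← Nat.cast_smul_eq_nsmul R, Nat.cast_ofNat]
  obtain ⟨x, hx0, hx⟩ := exists_fixed_or_cyclo hl2 act
    (by
      obtain ⟨L, hL, hLρ⟩ := hρ
      refine ⟨L, hL, fun τ hτ => LinearMap.ext fun w => ?_⟩
      show ρ τ w = w
      rw [hLρ τ hτ, Module.End.one_apply]) hhom
    (fun q hq hql => (haway q hq hql).imp fun B h => ⟨h.1, fun τ hτ => hsq τ (h.2 τ hτ)⟩) hmodel
  obtain ⟨-, t, ht1, ht2⟩ := hrel σ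
  have h := LinearMap.congr_fun ht2 x
  rw [LinearMap.add_apply, LinearMap.smul_apply, LinearMap.smul_apply, Module.End.one_apply,
    cycK_frobenius l R hq hql hA hσ] at h
  have hz : ∀ z : W, ((q : R) • z) = (q : ZMod l) • z := fun z => by
    rw [Nat.cast_smul_eq_nsmul, Nat.cast_smul_eq_nsmul]
  have hsum : (1 + (q : R)) • x = t • x := by
    rw [← h, add_smul, one_smul]
    rcases hx with hx | hx
    · rw [show ρ σ x = x from hx σ, show ρ σ⁻¹ x = x from hx σ⁻¹]
    · have hc := cycK_frobenius l (ZMod l) hq hql hA hσ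
      have hqc : ((cycK l (ZMod l) σ⁻¹ : (ZMod l)ˣ) : ZMod l) * (q : ZMod l) = 1 := by
        rw [← hc, ← Units.val_mul, ← map_mul, inv_mul_cancel, map_one, Units.val_one]
      rw [show ρ σ x = _ from hx σ, show ρ σ⁻¹ x = _ from hx σ⁻¹, hc, hz x, hz, smul_smul,
        mul_comm (q : ZMod l), hqc, one_smul, add_comm]
  rw [← ht1, ← (smul_left_injective R hx0) hsum, map_add, map_one, map_natCast]

end FA.EisReducible

end
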