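import Fermat.Agent.JTorsion.CycloRes
import Fermat.Agent.LocalDef.Residual
import Fermat.Agent.LocalDef.Transfer
import Fermat.Agent.Local.Minkowski
import Mathlib.LinearAlgebra.Eigenspace.Minpoly
import Mathlib.GroupTheory.Abelianization.Defs
import Mathlib.FieldTheory.Finite.GaloisField

/-!
# Finite flat Galois modules with unipotent commutators and unipotent inertia away from `l`

For an odd prime `l` such a module, killed by `l`, has a nonzero vector which is fixed, or on which
the Galois group acts by the cyclotomic character: a simple constituent is abelian, inertia away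
from `l` is trivial on it and inertia at `l` is trivial or cyclotomic, so by Minkowski the whole
group is.
-/

set_option autoImplicit false
set_option linter.style.haveILetI false
set_option linter.unusedSectionVars false

noncomputable section

open FA.LocalDef FA.Local FA.JTorsion Polynomial
open scoped commutatorElement

namespace FA.EisReducible

local notation "Qb" => AlgebraicClosure ℚ
local notation "GQ" => AlgebraicClosure ℚ ≃ₐ[ℚ] AlgebraicClosure ℚ

variable {l : ℕ} [hl : Fact l.Prime]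

/-- A unipotent of level two has order dividing the characteristic. -/
theorem pow_eq_one_of_sq {R : Type*} [Ring R] {x : R} (h : (x - 1) * (x - 1) = 0)
    (hR : (l : R) = 0) : x ^ l = 1 := by
  have key : ∀ n : ℕ, x ^ n = 1 + n • (x - 1) := fun n => by
    induction n with
    | zero => simp
    | succ n ih =>
      have hx : x = 1 + (x - 1) := by abel
      rw [pow_succ, ih, succ_nsmul]
      conv_lhs => enter [2]; rw [hx]
      rw [add_mul, one_mul, smul_mul_assoc, mul_add, mul_one, h, add_zero]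
      abel
  rw [key, nsmul_eq_mul, hR, zero_mul, add_zero]

/-- The value of the cyclotomic character at an automorphism with known action on `ζ`. -/
theorem cycK_eq {ζ : Qb} (hζ : IsPrimitiveRoot ζ l) {σ : GQ} {m : ℕ} (hm : σ ζ = ζ ^ m) :
    ((cycK l (ZMod l) σ : (ZMod l)ˣ) : ZMod l) = (m : ZMod l) := by
  have h : ((cycP l σ : ℤ_[l]ˣ) : ℤ_[l]).toZModPow 1 = (m : ZMod (l ^ 1)) := by
    rw [cycP_toZModPow]
    symm
    refine modularCyclotomicCharacter.unique Qb _ _ fun t ht => ?_
    have hl0 : NeZero l := ⟨hl.out.ne_zero⟩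
    have ht' : (t : Qb) ^ l = 1 := by
      have := (mem_rootsOfUnity _ t).mp ht
      rw [pow_one] at this
      rw [← Units.val_pow_eq_pow_val, this, Units.val_one]
    obtain ⟨i, -, hi⟩ := hζ.eq_pow_of_pow_eq_one ht'
    show σ (t : Qb) = _
    rw [← hi, map_pow, hm, ← pow_mul, ← pow_mul, mul_comm m, ZMod.val_natCast, pow_one,
      pow_mul ζ i, pow_mul ζ i]
    exact pow_eq_pow_mod m (by rw [← pow_mul, mul_comm, pow_mul, hζ.pow_eq_one, one_pow])
  rw [cycK_val, h, map_natCast]

section simple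

variable {X : Type} [AddCommGroup X] [Module (ZMod l) X] [Fintype X] [Nontrivial X]
  (g : GQ →* Module.End (ZMod l) X)

/-- On a simple module the endomorphisms of the module are zero or injective. -/
theorem eq_zero_or_injective
    (hsimple : ∀ U : Submodule (ZMod l) X, (∀ σ, ∀ u ∈ U, g σ u ∈ U) → U = ⊥ ∨ U = ⊤)
    {f : Module.End (ZMod l) X} (hf : ∀ σ, Commute f (g σ)) : f = 0 ∨ Function.Injective f := by
  rcases hsimple (LinearMap.ker f) (fun σ u hu => by
    rw [LinearMap.mem_ker] at hu ⊢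
    rw [← Module.End.mul_apply, (hf σ).eq, Module.End.mul_apply, hu, map_zero]) with h | h
  · exact Or.inr (LinearMap.ker_eq_bot.1 h)
  · exact Or.inl (LinearMap.ker_eq_top.1 h)

/-- A commuting endomorphism with a power equal to zero is zero. -/
theorem eq_zero_of_pow_eq_zero
    (hsimple : ∀ U : Submodule (ZMod l) X, (∀ σ, ∀ u ∈ U, g σ u ∈ U) → U = ⊥ ∨ U = ⊤)
    {f : Module.End (ZMod l) X} (hf : ∀ σ, Commute f (g σ)) {n : ℕ} (hn : f ^ n = 0) : f = 0 := by
  refine (eq_zero_or_injective g hsimple hf).resolve_right fun hinj => ?_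
  have h : Function.Injective ⇑(f ^ n) := by
    rw [Module.End.coe_pow]
    exact hinj.iterate n
  rw [hn] at h
  obtain ⟨a, b, hab⟩ := exists_pair_ne X
  exact hab (h rfl)

/-- **The simple case.** -/
theorem trivial_or_cyclo_of_simple (hl2 : l ≠ 2)
    (hfin : ∃ L : IntermediateField ℚ Qb, FiniteDimensional ℚ L ∧
      ∀ σ : GQ, (∀ a ∈ L, σ a = a) → g σ = 1)
    (hab : ∀ σ τ, Commute (g σ) (g τ))
    (hsimple : ∀ U : Submodule (ZMod l) X, (∀ σ, ∀ u ∈ U, g σ u ∈ U) → U = ⊥ ∨ U = ⊤)
    (haway : ∀ q : ℕ, q.Prime → q ≠ l → ∃ A : ValuationSubring Qb, A.LiesOverPrime q ∧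
      ∀ σ ∈ A.inertiaSubgroupIn ℚ, (g σ - 1) * (g σ - 1) = 0)
    (hmodel : ∀ A : ValuationSubring Qb, A.LiesOverPrime l → HasModel A X fun σ x => g σ x) :
    (∀ σ, g σ = 1) ∨ ∀ σ x, g σ x = ((cycK l (ZMod l) σ : (ZMod l)ˣ) : ZMod l) • x := by
  classical
  have hinj := (algebraMap (ZMod l) (Module.End (ZMod l) X)).injective
  haveI : CharP (Module.End (ZMod l) X) l := charP_of_injective_algebraMap hinj l
  have hsub : ∀ σ τ, Commute (g σ - 1) (g τ) := fun σ τ =>
    (hab σ τ).sub_left (Commute.one_left _)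
  have hunip : ∀ σ, (g σ - 1) * (g σ - 1) = 0 → g σ = 1 := fun σ h =>
    sub_eq_zero.1 (eq_zero_of_pow_eq_zero g hsimple (hsub σ) (n := 2) (by rw [pow_two, h]))
  obtain ⟨A, hA⟩ := FA.Deform.exists_liesOverPrime hl.out
  obtain ⟨S, hS⟩ := exists_sys (hmodel A hA) fun σ _ x y => map_add (g σ) x y
  have hact : ∀ σ x, S.act σ x = g σ x := fun σ x => by rw [hS]
  obtain ⟨ζ, hζ⟩ := exists_zeta hl.out
  -- inertia at `l`
  have hatl : (∀ σ ∈ A.inertiaSubgroupIn ℚ, g σ = 1) ∨
      ∀ σ ∈ A.inertiaSubgroupIn ℚ, ∀ x, g σ x =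
        ((cycK l (ZMod l) σ : (ZMod l)ˣ) : ZMod l) • x := by
    rcases hsimple (S.conn (p := l)) (fun τ u hu => S.map_mem_conn (p := l) hA hl2
      (g τ).toAddMonoidHom (fun σ _ x => by
        show g τ (S.act σ x) = S.act σ (g τ x)
        rw [hact, hact, ← Module.End.mul_apply, (hab τ σ).eq, Module.End.mul_apply]) hu) with h | h
    · refine Or.inl fun σ hσ => LinearMap.ext fun x => sub_eq_zero.1 ?_
      have hm := S.sub_mem_conn (p := l) hσ x
      rw [h, Submodule.mem_bot, hact] at hm
      exact hm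
    · refine Or.inr ?_
      obtain ⟨Λ, hΛ, -⟩ := S.exists_kerLayer (p := l) hA
      have hN : ∀ τ ∈ Λ.N, g τ = 1 := fun τ hτ => LinearMap.ext fun x => by
        rw [← hact]
        exact (S.mem_ker.mp (hΛ ▸ hτ)).2 x
      have hwild : ∀ τ ∈ Λ.fil 1, g τ = 1 := fun τ hτ => by
        obtain ⟨T, hT⟩ := Λ.exists_pow_mem hτ
        refine sub_eq_zero.1 (eq_zero_of_pow_eq_zero g hsimple (hsub τ) (n := l ^ T) ?_)
        rw [sub_pow_char_pow_of_commute l T (Commute.one_right _), one_pow, ← map_pow, hN _ hT,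
          sub_self]
      obtain ⟨F, hF⟩ := FA.Deform.exists_isFrobeniusAt hl.out hA
      have hnorm := S.normalizes_ker hA Λ hΛ hF.mem_decompositionSubgroup
      have hsc : ∀ σ ∈ A.inertiaSubgroupIn ℚ, ∃ m : ZMod l, ∀ x, g σ x = m • x := fun σ hσ => by
        have hpow : g σ ^ l = g σ := by
          have h1 := hwild _ (Λ.conj_frob_mem hF hnorm hσ)
          have h2 : g (F * σ * F⁻¹) = g σ := by
            rw [map_mul, map_mul, (hab F σ).eq, mul_assoc, ← map_mul, mul_inv_cancel, map_one,
              mul_one]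
          have h3 : g (σ ^ l) * g ((σ ^ l)⁻¹ * (F * σ * F⁻¹)) = g σ := by
            rw [← map_mul, mul_inv_cancel_left, h2]
          rwa [h1, mul_one, map_pow] at h3
        have hdvd : minpoly (ZMod l) (g σ) ∣ Polynomial.X ^ l - Polynomial.X :=
          minpoly.dvd _ _ (by rw [map_sub, map_pow, aeval_X, hpow, sub_self])
        have hsplit : (Polynomial.X ^ l - Polynomial.X : (ZMod l)[X]).Splits := by
          have := FiniteField.splits_X_pow_card_sub_X l (K := ZMod l)
          simpa using this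
        have hne : (Polynomial.X ^ l - Polynomial.X : (ZMod l)[X]) ≠ 0 :=
          FiniteField.X_pow_card_sub_X_ne_zero _ hl.out.one_lt
        have hint : IsIntegral (ZMod l) (g σ) := Algebra.IsIntegral.isIntegral _
        obtain ⟨m, hm⟩ := (hsplit.of_dvd hne hdvd).exists_eval_eq_zero
          (degree_pos_of_ne_zero_of_nonunit (minpoly.ne_zero hint)
            (minpoly.not_isUnit _ _)).ne'
        obtain ⟨x₀, hx₀⟩ :=
          ((Module.End.hasEigenvalue_iff_isRoot).2 hm).exists_hasEigenvector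
        refine ⟨m, fun x => ?_⟩
        have hz := eq_zero_or_injective g hsimple (f := g σ - m • 1)
          (fun τ => (hab σ τ).sub_left ((Commute.one_left _).smul_left m))
        rcases hz with hz | hz
        · exact LinearMap.congr_fun (sub_eq_zero.1 hz) x
        · refine absurd (hz (?_ : (g σ - m • 1) x₀ = (g σ - m • 1) 0)) hx₀.2
          rw [map_zero, LinearMap.sub_apply, LinearMap.smul_apply, Module.End.one_apply,
            hx₀.apply_eq_smul, sub_self]
      intro σ hσ x
      obtain ⟨m, -, hm⟩ := exists_zeta_pow (p := l) hζ σ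
      have hom := S.scalar_eq_omega hA hζ ⊤ h.ge top_ne_bot
        (fun τ hτ => (hsc τ hτ).imp fun c hc y _ => by rw [hact]; exact hc y) hσ hm x trivial
      rwa [hact, ← cycK_eq hζ hm] at hom
  -- the global step
  have glue : ∀ φ : GQ →* Module.End (ZMod l) X,
      (∀ σ, g σ = 1 → cycK l (ZMod l) σ = 1 → φ σ = 1) →
      (∀ σ ∈ A.inertiaSubgroupIn ℚ, φ σ = 1) → ∀ σ, φ σ = 1 := by
    intro φ h1 h2 σ
    obtain ⟨L, hL, hLg⟩ := hfin
    obtain ⟨L', hL', hLc⟩ := exists_field_cycK l (ZMod l)
    have htop := eq_top_of_inertia_le φ.ker (L ⊔ L') (fun τ hτ => MonoidHom.mem_ker.2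
      (h1 τ (hLg τ fun a ha => hτ a ((le_sup_left : L ≤ L ⊔ L') ha))
        (hLc τ fun a ha => hτ a ((le_sup_right : L' ≤ L ⊔ L') ha)))) fun q hq => by
      by_cases hql : q = l
      · subst hql
        exact ⟨A, hA, fun τ hτ => MonoidHom.mem_ker.2 (h2 τ hτ)⟩
      · obtain ⟨B, hB, hBu⟩ := haway q hq hql
        exact ⟨B, hB, fun τ hτ => MonoidHom.mem_ker.2
          (h1 τ (hunip τ (hBu τ hτ)) (cycK_inertia l (ZMod l) hq hql hB hτ))⟩
    exact MonoidHom.mem_ker.1 (htop ▸ Subgroup.mem_top σ)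
  rcases hatl with h | h
  · exact Or.inl (glue g (fun σ h1 _ => h1) h)
  · refine Or.inr fun σ x => ?_
    let φ : GQ →* Module.End (ZMod l) X :=
      { toFun := fun τ => (((cycK l (ZMod l) τ)⁻¹ : (ZMod l)ˣ) : ZMod l) • g τ
        map_one' := by rw [map_one, map_one, inv_one, Units.val_one, one_smul]
        map_mul' := fun τ τ' => by
          rw [map_mul, map_mul, mul_inv, Units.val_mul, smul_mul_assoc, mul_smul_comm, smul_smul] }
    have hσ := LinearMap.congr_fun (glue φ (fun τ h1 h2 => by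
      show (((cycK l (ZMod l) τ)⁻¹ : (ZMod l)ˣ) : ZMod l) • g τ = 1
      rw [h1, h2, inv_one, Units.val_one, one_smul]) (fun τ hτ => LinearMap.ext fun y => by
        show (((cycK l (ZMod l) τ)⁻¹ : (ZMod l)ˣ) : ZMod l) • g τ y = y
        rw [h τ hτ y, smul_smul, Units.inv_mul, one_smul]) σ) x
    calc g σ x = ((cycK l (ZMod l) σ : (ZMod l)ˣ) : ZMod l) •
          ((((cycK l (ZMod l) σ)⁻¹ : (ZMod l)ˣ) : ZMod l) • g σ x) := by
            rw [smul_smul, Units.mul_inv, one_smul]
      _ = _ := congrArg _ hσ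

end simple

/-- **A fixed or cyclotomic vector.** -/
theorem exists_fixed_or_cyclo (hl2 : l ≠ 2) {V : Type} [AddCommGroup V] [Module (ZMod l) V]
    [Fintype V] [Nontrivial V] (act : GQ →* Module.End (ZMod l) V)
    (hfin : ∃ L : IntermediateField ℚ Qb, FiniteDimensional ℚ L ∧
      ∀ σ : GQ, (∀ a ∈ L, σ a = a) → act σ = 1)
    (hcomm : ∀ σ ∈ commutator GQ, (act σ - 1) * (act σ - 1) = 0)
    (haway : ∀ q : ℕ, q.Prime → q ≠ l → ∃ A : ValuationSubring Qb, A.LiesOverPrime q ∧
      ∀ σ ∈ A.inertiaSubgroupIn ℚ, (act σ - 1) * (act σ - 1) = 0)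
    (hmodel : ∀ A : ValuationSubring Qb, A.LiesOverPrime l → HasModel A V fun σ x => act σ x) :
    ∃ x : V, x ≠ 0 ∧
      ((∀ σ, act σ x = x) ∨ ∀ σ, act σ x = ((cycK l (ZMod l) σ : (ZMod l)ˣ) : ZMod l) • x) := by
  classical
  -- the vectors fixed by the commutators
  let K := commutator GQ
  let φ : K →* Equiv.Perm V :=
    { toFun := fun σ =>
        { toFun := act σ
          invFun := act (σ : GQ)⁻¹
          left_inv := fun x => by
            rw [← Module.End.mul_apply, ← map_mul, inv_mul_cancel, map_one, Module.End.one_apply]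
          right_inv := fun x => by
            rw [← Module.End.mul_apply, ← map_mul, mul_inv_cancel, map_one, Module.End.one_apply] }
      map_one' := Equiv.ext fun x => by simp
      map_mul' := fun σ τ => Equiv.ext fun x => by simp }
  have hPG : IsPGroup l φ.range := by
    rintro ⟨_, σ, rfl⟩
    refine ⟨1, Subtype.ext (Equiv.ext fun x => ?_)⟩
    rw [pow_one, SubgroupClass.coe_pow, ← map_pow, OneMemClass.coe_one]
    show act ((σ : GQ) ^ l) x = x
    rw [map_pow, pow_eq_one_of_sq (hcomm σ σ.2) (by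
      rw [← map_natCast (algebraMap (ZMod l) (Module.End (ZMod l) V)), ZMod.natCast_self,
        map_zero]),
      Module.End.one_apply]
  have hcard : l ∣ Nat.card V := by
    obtain ⟨v, hv⟩ := exists_ne (0 : V)
    have h : addOrderOf v = l := addOrderOf_eq_prime (by
      rw [← Nat.cast_smul_eq_nsmul (ZMod l), ZMod.natCast_self, zero_smul]) hv
    exact h ▸ addOrderOf_dvd_natCard v
  obtain ⟨x₀, hx₀, hx₀0⟩ := hPG.exists_fixed_point_of_prime_dvd_card_of_fixed_point (α := V)
    hcard (a := 0) (by rintro ⟨_, σ, rfl⟩; exact map_zero (act σ))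
  let W : Submodule (ZMod l) V :=
    { carrier := {w | ∀ σ ∈ K, act σ w = w}
      add_mem' := fun ha hb σ hσ => by rw [map_add, ha σ hσ, hb σ hσ]
      zero_mem' := fun σ _ => map_zero _
      smul_mem' := fun c w hw σ hσ => by rw [map_smul, hw σ hσ] }
  have hW : ∀ τ, ∀ w ∈ W, act τ w ∈ W := fun τ w hw σ hσ => by
    have hc : τ⁻¹ * σ * τ ∈ K := by
      simpa using (inferInstance : K.Normal).conj_mem σ hσ τ⁻¹
    calc act σ (act τ w) = act τ (act (τ⁻¹ * σ * τ) w) := by
          rw [← Module.End.mul_apply, ← Module.End.mul_apply, ← map_mul, ← map_mul, mul_assoc,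
            mul_inv_cancel_left]
      _ = act τ w := by rw [hw _ hc]
  have hWbot : W ≠ ⊥ := fun h => hx₀0 ((Submodule.eq_bot_iff W).1 h x₀
    (fun σ hσ => hx₀ ⟨_, ⟨σ, hσ⟩, rfl⟩)).symm
  -- a simple piece
  obtain ⟨U, ⟨hUW, hU0, hU⟩, hmin⟩ := WellFounded.has_min (α := Submodule (ZMod l) V)
    wellFounded_lt {U | U ≤ W ∧ U ≠ ⊥ ∧ ∀ σ, ∀ u ∈ U, act σ u ∈ U} ⟨W, le_rfl, hWbot, hW⟩
  haveI : Nontrivial U := Submodule.nontrivial_iff_ne_bot.2 hU0
  let g : GQ →* Module.End (ZMod l) U :=
    { toFun := fun σ => (act σ).restrict (hU σ)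
      map_one' := LinearMap.ext fun u => Subtype.ext (by
        show act 1 (u : V) = u
        rw [map_one]; rfl)
      map_mul' := fun σ τ => LinearMap.ext fun u => Subtype.ext (by
        show act (σ * τ) (u : V) = act σ (act τ u)
        rw [map_mul]; rfl) }
  have hsq : ∀ σ, (act σ - 1) * (act σ - 1) = 0 → (g σ - 1) * (g σ - 1) = 0 := fun σ h =>
    LinearMap.ext fun u => Subtype.ext (LinearMap.congr_fun h (u : V))
  have hab : ∀ σ τ, Commute (g σ) (g τ) := fun σ τ => LinearMap.ext fun u => Subtype.ext (by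
    show act σ (act τ (u : V)) = act τ (act σ u)
    have hc : ⁅σ⁻¹, τ⁻¹⁆ ∈ K :=
      Subgroup.commutator_mem_commutator (Subgroup.mem_top _) (Subgroup.mem_top _)
    conv_rhs => rw [← hUW u.2 _ hc]
    rw [← Module.End.mul_apply, ← Module.End.mul_apply, ← Module.End.mul_apply, ← map_mul,
      ← map_mul, ← map_mul]
    congr 2
    rw [commutatorElement_def]
    group)
  rcases trivial_or_cyclo_of_simple g hl2
    (hfin.imp fun L h => ⟨h.1, fun σ hσ => LinearMap.ext fun u => Subtype.ext
      (LinearMap.congr_fun (h.2 σ hσ) (u : V))⟩)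
    hab
    (fun U' hU' => (em (U' = ⊥)).imp_right fun hb => by
      by_contra ht
      refine hmin (U'.map U.subtype) ⟨(Submodule.map_subtype_le U U').trans hUW, fun h => hb ?_,
        fun σ => ?_⟩ ?_
      · exact Submodule.map_injective_of_injective (Submodule.injective_subtype U)
          (h.trans (Submodule.map_bot _).symm)
      · rintro _ ⟨u, hu, rfl⟩
        exact ⟨g σ u, hU' σ u hu, rfl⟩
      · refine lt_of_le_of_ne (Submodule.map_subtype_le U U') fun h => ht ?_
        exact Submodule.map_injective_of_injective (Submodule.injective_subtype U)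
          (h.trans (Submodule.map_subtype_top U).symm))
    (fun q hq hql => (haway q hq hql).imp fun B h => ⟨h.1, fun σ hσ => hsq σ (h.2 σ hσ)⟩)
    (fun A hA => (hmodel A hA).of_injective U.subtype.toAddMonoidHom Subtype.val_injective
      fun σ _ u => rfl) with h | h
  all_goals obtain ⟨⟨u, huU⟩, hu⟩ := exists_ne (0 : U)
  · exact ⟨u, fun e => hu (Subtype.ext e), Or.inl fun σ =>
      congrArg Subtype.val (LinearMap.congr_fun (h σ) ⟨u, huU⟩)⟩
  · exact ⟨u, fun e => hu (Subtype.ext e), Or.inr fun σ =>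
      congrArg Subtype.val (h σ ⟨u, huU⟩)⟩

end FA.EisReducible

end
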